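import Fermat.Agent.S05.Local

set_option autoImplicit false
set_option linter.unusedSectionVars false
set_option linter.unusedVariables false
set_option linter.unusedSimpArgs false

/-!
# Application to the Frey curve
-/

namespace Fermat.Agent.S05

open WeierstrassCurve WeierstrassCurve.Affine WeierstrassCurve.Affine.Point

section RootsMap

variable {K : Type*} [Field K] [Algebra ℚ K] {W : WeierstrassCurve.Affine ℚ}

lemma Roots.baseChange {e e' e'' : ℚ} (hr : Roots W e e' e'') :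
    Roots (W⁄K) (algebraMap ℚ K e) (algebraMap ℚ K e') (algebraMap ℚ K e'') := by
  refine ⟨?_, ?_, ?_, ?_⟩
  · have : (W⁄K).b₂ = algebraMap ℚ K W.b₂ := by simp [WeierstrassCurve.baseChange]
    rw [this, hr.b2]; simp only [map_neg, map_mul, map_add, map_sub, map_pow, map_ofNat]
  · have : (W⁄K).b₄ = algebraMap ℚ K W.b₄ := by simp [WeierstrassCurve.baseChange]
    rw [this, hr.b4]; simp only [map_neg, map_mul, map_add, map_sub, map_pow, map_ofNat]
  · have : (W⁄K).b₆ = algebraMap ℚ K W.b₆ := by simp [WeierstrassCurve.baseChange]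
    rw [this, hr.b6]; simp only [map_neg, map_mul, map_add, map_sub, map_pow, map_ofNat]
  · have : (W⁄K).b₈ = algebraMap ℚ K W.b₈ := by simp [WeierstrassCurve.baseChange]
    rw [this, hr.b8]; simp only [map_neg, map_mul, map_add, map_sub, map_pow, map_ofNat]

end RootsMap

lemma frey_roots (P : FreyPackage) :
    Roots (P.freyCurve : WeierstrassCurve.Affine ℚ) 0 ((P.a : ℚ) ^ P.p / 4)
      (-((P.b : ℚ) ^ P.p) / 4) := by
  refine ⟨?_, ?_, ?_, ?_⟩
  · simp only [WeierstrassCurve.b₂, FreyPackage.freyCurve]; ring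
  · simp only [WeierstrassCurve.b₄, FreyPackage.freyCurve]; ring
  · simp only [WeierstrassCurve.b₆, FreyPackage.freyCurve]; ring
  · simp only [WeierstrassCurve.b₈, FreyPackage.freyCurve]; ring

lemma exists_pow_mul_not_dvd {q : ℕ} (hq : q.Prime) {n : ℤ} (hn : n ≠ 0) :
    ∃ (s : ℕ) (c : ℤ), n = (q : ℤ) ^ s * c ∧ ¬ (q : ℤ) ∣ c := by
  have : Fact q.Prime := ⟨hq⟩
  obtain ⟨e, he⟩ : ∃ e, e = padicValInt q n := ⟨_, rfl⟩
  obtain ⟨c, hc⟩ : (q : ℤ) ^ e ∣ n := he ▸ padicValInt_dvd n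
  refine ⟨e, c, hc, ?_⟩
  intro hd
  obtain ⟨d, rfl⟩ := hd
  have : (q : ℤ) ^ (e + 1) ∣ n := ⟨d, by rw [hc]; ring⟩
  rw [padicValInt_dvd_iff] at this
  rcases this with h0 | h0
  · exact hn h0
  · omega

section Vals

variable {K : Type*} [Field K] [CharZero K] (A : ValuationSubring K) {q : ℕ}

lemma val_four (hq : q.Prime) (hqA : (q : K) ∈ A.nonunits) (hq2 : q ≠ 2) :
    A.valuation (4 : K) = 1 := by
  have h2 : A.valuation ((2 : ℤ) : K) = 1 := val_int_of_not_dvd A hq hqA (by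
    intro hd
    have := (Nat.prime_dvd_prime_iff_eq hq Nat.prime_two).mp (by exact_mod_cast hd)
    exact hq2 this)
  have : (4 : K) = ((2 : ℤ) : K) * ((2 : ℤ) : K) := by norm_num
  rw [this, map_mul, h2, one_mul]

lemma val_pow_div_four (hq : q.Prime) (hqA : (q : K) ∈ A.nonunits) (hq2 : q ≠ 2) {n : ℤ}
    (hn : ¬ (q : ℤ) ∣ n) (p : ℕ) : A.valuation ((n : K) ^ p / 4) = 1 := by
  rw [map_div₀, map_pow, val_int_of_not_dvd A hq hqA hn, val_four A hq hqA hq2]; simp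

lemma mem_pow_div_four (hq : q.Prime) (hqA : (q : K) ∈ A.nonunits) (hq2 : q ≠ 2) (n : ℤ)
    (p : ℕ) : (n : K) ^ p / 4 ∈ A := by
  rw [← A.valuation_le_one_iff, map_div₀, map_pow, val_four A hq hqA hq2, div_one]
  exact pow_le_one₀ zero_le ((A.valuation_le_one_iff _).mpr (intCast_mem A n))

lemma split_pow_div_four (hq : q.Prime) (hqA : (q : K) ∈ A.nonunits) (hq2 : q ≠ 2) {n : ℤ}
    (hn : n ≠ 0) (p : ℕ) :
    ∃ (s : ℕ) (u : K), A.valuation u = 1 ∧ (n : K) ^ p / 4 = (q : K) ^ (p * s) * u := by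
  obtain ⟨s, c, hc, hd⟩ := exists_pow_mul_not_dvd hq hn
  refine ⟨s, (c : K) ^ p / 4, val_pow_div_four A hq hqA hq2 hd p, ?_⟩
  rw [hc]; push_cast; rw [mul_pow, ← pow_mul, mul_comm s p]; ring

end Vals

section Main

local notation "Kb" => AlgebraicClosure ℚ
local notation "ι" => algebraMap ℚ (AlgebraicClosure ℚ)

theorem frey_unramified (P : FreyPackage) {q : ℕ} (hq : q.Prime) (hq2 : q ≠ 2) (hqp : q ≠ P.p)
    (A : ValuationSubring Kb) (hqA : (q : Kb) ∈ A.nonunits)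
    {σ : Kb ≃ₐ[ℚ] Kb} (hσ : σ ∈ A.inertiaSubgroupIn ℚ)
    {x : ((P.freyCurve : WeierstrassCurve.Affine ℚ)⁄Kb).Point} (hx : P.p • x = 0) :
    σ • x = x := by
  have : Algebra.IsAlgebraic ℚ Kb := AlgebraicClosure.isAlgebraic ℚ
  have hqZ : Prime (q : ℤ) := Nat.prime_iff_prime_int.mp hq
  have hcop : ∀ {m n : ℤ}, gcd m n = 1 → (q : ℤ) ∣ m → ¬ (q : ℤ) ∣ n := by
    intro m n hg h1 h2
    have := dvd_gcd h1 h2
    rw [hg] at this
    exact hqZ.not_dvd_one this
  have hFLT : (P.a : Kb) ^ P.p + (P.b : Kb) ^ P.p = (P.c : Kb) ^ P.p := by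
    exact_mod_cast congrArg (Int.cast : ℤ → Kb) P.hFLT
  have hr := (frey_roots P).baseChange (K := Kb)
  have ea : ι ((P.a : ℚ) ^ P.p / 4) = (P.a : Kb) ^ P.p / 4 := by simp
  have eb : ι (-((P.b : ℚ) ^ P.p) / 4) = -((P.b : Kb) ^ P.p / 4) := by simp [neg_div]
  have e0 : ι 0 = 0 := map_zero _
  have ha := mem_pow_div_four A hq hqA hq2 P.a P.p
  have hb := mem_pow_div_four A hq hqA hq2 P.b P.p
  by_cases hbc : ¬ (q : ℤ) ∣ P.b ∧ ¬ (q : ℤ) ∣ P.c
  · obtain ⟨s, u, hu, hs⟩ := split_pow_div_four A hq hqA hq2 P.ha0 P.p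
    refine local_unramified A hq hqA hq2 P.pp P.hp5 hqp.symm hr ?_ ?_ ?_ ?_ ?_ hu (s := s) ?_ hσ hx
    · rw [e0]; exact A.zero_mem
    · rw [ea]; exact ha
    · rw [eb]; exact neg_mem hb
    · rw [eb, e0, sub_zero, Valuation.map_neg]
      exact val_pow_div_four A hq hqA hq2 hbc.1 P.p
    · rw [eb, ea]
      have : -((P.b : Kb) ^ P.p / 4) - (P.a : Kb) ^ P.p / 4 = -((P.c : Kb) ^ P.p / 4) := by
        rw [← hFLT]; ring
      rw [this, Valuation.map_neg]
      exact val_pow_div_four A hq hqA hq2 hbc.2 P.p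
    · rw [ea, e0, sub_zero, hs]
  · by_cases hqb : (q : ℤ) ∣ P.b
    · have hqa : ¬ (q : ℤ) ∣ P.a := hcop (by rw [gcd_comm]; exact P.hgcdab) hqb
      have hqc : ¬ (q : ℤ) ∣ P.c := hcop P.hgcdbc hqb
      obtain ⟨s, u, hu, hs⟩ := split_pow_div_four A hq hqA hq2 P.hb0 P.p
      refine local_unramified A hq hqA hq2 P.pp P.hp5 hqp.symm hr.swap ?_ ?_ ?_ ?_ ?_
        (u := -u) (by rw [Valuation.map_neg]; exact hu) (s := s) ?_ hσ hx
      · rw [e0]; exact A.zero_mem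
      · rw [eb]; exact neg_mem hb
      · rw [ea]; exact ha
      · rw [ea, e0, sub_zero]
        exact val_pow_div_four A hq hqA hq2 hqa P.p
      · rw [eb, ea]
        have : (P.a : Kb) ^ P.p / 4 - -((P.b : Kb) ^ P.p / 4) = (P.c : Kb) ^ P.p / 4 := by
          rw [← hFLT]; ring
        rw [this]
        exact val_pow_div_four A hq hqA hq2 hqc P.p
      · rw [eb, e0, sub_zero, hs]; ring
    · have hqc : (q : ℤ) ∣ P.c := by
        by_contra h; exact hbc ⟨hqb, h⟩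
      have hqa : ¬ (q : ℤ) ∣ P.a := hcop (by rw [gcd_comm]; exact P.hgcdac) hqc
      obtain ⟨s, u, hu, hs⟩ := split_pow_div_four A hq hqA hq2 P.hc0 P.p
      refine local_unramified A hq hqA hq2 P.pp P.hp5 hqp.symm hr.rot ?_ ?_ ?_ ?_ ?_
        (u := -u) (by rw [Valuation.map_neg]; exact hu) (s := s) ?_ hσ hx
      · rw [ea]; exact ha
      · rw [eb]; exact neg_mem hb
      · rw [e0]; exact A.zero_mem
      · rw [ea, e0, zero_sub, Valuation.map_neg]
        exact val_pow_div_four A hq hqA hq2 hqa P.p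
      · rw [eb, e0, zero_sub, neg_neg]
        exact val_pow_div_four A hq hqA hq2 hqb P.p
      · rw [eb, ea]
        have : -((P.b : Kb) ^ P.p / 4) - (P.a : Kb) ^ P.p / 4 = -((P.c : Kb) ^ P.p / 4) := by
          rw [← hFLT]; ring
        rw [this, hs]; ring

end Main

end Fermat.Agent.S05
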