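import Fermat.Agent.S05.Node
import Fermat.Prelude.Def_FLTPrelim_Ramification

set_option autoImplicit false
set_option linter.unusedSectionVars false
set_option linter.unusedVariables false

/-!
# The inertia argument
-/

namespace Fermat.Agent.S05

open WeierstrassCurve WeierstrassCurve.Affine WeierstrassCurve.Affine.Point

section InertiaBasic

variable {L : Type*} [Field L] {F : Type*} [Field F] [Algebra F L] (A : ValuationSubring L)

lemma inertia_spec {σ : L ≃ₐ[F] L} (hσ : σ ∈ A.inertiaSubgroupIn F) :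
    (∀ z ∈ A, σ z ∈ A) ∧ (∀ z ∈ A, σ z - z ∈ A.nonunits) := by
  obtain ⟨τ, hτ, rfl⟩ := hσ
  have h1 : ∀ z (hz : z ∈ A), ((τ • (⟨z, hz⟩ : A) : A) : L) = τ.1 z := fun z hz => rfl
  refine ⟨fun z hz => ?_, fun z hz => ?_⟩
  · have := (τ • (⟨z, hz⟩ : A) : A).2
    rwa [h1] at this
  · have hk : MulSemiringAction.toRingAut (A.decompositionSubgroup F)
        (IsLocalRing.ResidueField A) τ = 1 := hτ
    have h2 : τ • IsLocalRing.residue A ⟨z, hz⟩ = IsLocalRing.residue A ⟨z, hz⟩ := by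
      have := DFunLike.congr_fun hk (IsLocalRing.residue A ⟨z, hz⟩)
      simpa using this
    rw [← IsLocalRing.ResidueField.residue_smul] at h2
    have h3 : (τ • (⟨z, hz⟩ : A) : A) - ⟨z, hz⟩ ∈ IsLocalRing.maximalIdeal A := by
      rw [← IsLocalRing.residue_eq_zero_iff, map_sub, h2, sub_self]
    have h4 := (A.coe_mem_nonunits_iff).mpr h3
    simpa [h1] using h4

end InertiaBasic

section Fix

variable {K : Type*} [Field K] [DecidableEq K] [Algebra ℚ K] {W : WeierstrassCurve.Affine ℚ}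

lemma smul_some (σ : K ≃ₐ[ℚ] K) {x y : K} (h : (W⁄K).Nonsingular x y) :
    ∃ h' : (W⁄K).Nonsingular (σ x) (σ y), σ • (some x y h : (W⁄K).Point) = some (σ x) (σ y) h' :=
  ⟨_, Point.map_some σ.toAlgHom h⟩

lemma xc_smul (σ : K ≃ₐ[ℚ] K) (P : (W⁄K).Point) : xc (W⁄K) (σ • P) = σ (xc (W⁄K) P) := by
  cases P with
  | zero => exact (map_zero σ).symm
  | some x y h => rfl

lemma smul_ne_zero (σ : K ≃ₐ[ℚ] K) {P : (W⁄K).Point} (hP : P ≠ 0) : σ • P ≠ 0 := by
  intro h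
  apply hP
  rw [algEquiv_smul_def] at h
  exact Point.map_injective (f := σ.toAlgHom) (h.trans (Point.map_zero σ.toAlgHom).symm)

lemma nsmul_smul_eq_zero (σ : K ≃ₐ[ℚ] K) {P : (W⁄K).Point} {p : ℕ} (hP : p • P = 0) :
    p • (σ • P) = 0 := by
  rw [algEquiv_smul_def, ← (Point.map σ.toAlgHom).map_nsmul, hP, _root_.map_zero]

/-- The unified inertia argument. -/
theorem inertia_fix {A : ValuationSubring K} {σ : K ≃ₐ[ℚ] K} {p : ℕ}
    (hσ2 : ∀ z ∈ A, σ z - z ∈ A.nonunits)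
    {e e' e'' : K} (hr : Roots (W⁄K) e e' e'') (hσe : σ e = e) (heA : e ∈ A)
    (hρA : (e' - e) + (e'' - e) ∈ A)
    (hint : ∀ R : (W⁄K).Point, R ≠ 0 → p • R = 0 → xc (W⁄K) R ∈ A)
    (h2A : (2 : K) ∉ A.nonunits)
    {P : (W⁄K).Point} (hP : P ≠ 0) (hpP : p • P = 0)
    {t : K} (ht0 : t ≠ 0) (htA : t ∈ A) (hσt : σ t = t)
    (hw : (xc (W⁄K) P - e) / t ∈ A) (hκ : (e' - e) * (e'' - e) / t ∈ A)
    (hu : fF (W⁄K) (xc (W⁄K) P) / t ^ 2 ∈ A) (hu' : fF (W⁄K) (xc (W⁄K) P) / t ^ 2 ∉ A.nonunits) :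
    σ • P = P := by
  have h2inv : (2 : K) ≠ 0 ∧ (2 : K)⁻¹ ∈ A := by
    rw [ValuationSubring.mem_nonunits_iff_or] at h2A
    push Not at h2A
    exact h2A
  have h2mem : (2 : K) ∈ A := by exact_mod_cast natCast_mem A 2
  have h4mem : (4 : K) ∈ A := by exact_mod_cast natCast_mem A 4
  have h6mem : (6 : K) ∈ A := by exact_mod_cast natCast_mem A 6
  obtain ⟨x, hx⟩ : ∃ x, xc (W⁄K) P = x := ⟨_, rfl⟩
  rw [hx] at hw hu hu'
  obtain ⟨w, hwdef⟩ : ∃ w, (x - e) / t = w := ⟨_, rfl⟩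
  obtain ⟨k, hkdef⟩ : ∃ k, (e' - e) * (e'' - e) / t = k := ⟨_, rfl⟩
  obtain ⟨ρ, hρdef⟩ : ∃ ρ, (e' - e) + (e'' - e) = ρ := ⟨_, rfl⟩
  rw [hwdef] at hw
  rw [hkdef] at hκ
  rw [hρdef] at hρA
  have hxw : x - e = t * w := by rw [← hwdef]; field_simp
  have hkk : (e' - e) * (e'' - e) = t * k := by rw [← hkdef]; field_simp
  have hueq : fF (W⁄K) x / t ^ 2 = 4 * t * w ^ 3 - 4 * ρ * w ^ 2 + 4 * k * w := by
    rw [div_eq_iff (pow_ne_zero 2 ht0), hr.fF_eq, hxw]
    have : 4 * (t * w) * (t * w - (e' - e)) * (t * w - (e'' - e)) =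
        4 * (t * w) * ((t * w) ^ 2 - ((e' - e) + (e'' - e)) * (t * w) + (e' - e) * (e'' - e)) := by
      ring
    rw [this, hρdef, hkk]; ring
  have hσP0 := smul_ne_zero σ hP
  have hσPp := nsmul_smul_eq_zero σ hpP
  have hσx : xc (W⁄K) (σ • P) = σ x := by rw [xc_smul, hx]
  -- Step 1
  have hstep1 : σ x = x := by
    by_contra hne
    have hne' : xc (W⁄K) (σ • P) ≠ xc (W⁄K) P := by rw [hσx, hx]; exact hne
    have hG := (xc_add_sub hσP0 hP hne').1
    have hs0 : σ • P + P ≠ 0 := by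
      intro h0
      apply hne'
      rw [eq_neg_of_add_eq_zero_left h0, xc_neg]
    have hd0 : σ • P - P ≠ 0 := by
      intro h0
      apply hne'
      rw [sub_eq_zero.mp h0]
    have hsA := hint _ hs0 (by rw [nsmul_add, hσPp, hpP, add_zero])
    have hdA := hint _ hd0 (by rw [nsmul_sub, hσPp, hpP, sub_zero])
    obtain ⟨μ, hμ⟩ : ∃ μ, σ w - w = μ := ⟨_, rfl⟩
    have hμM : μ ∈ A.nonunits := hμ ▸ hσ2 w hw
    have hμA : μ ∈ A := nu_mem A hμM
    have hσw : σ x - e = t * (w + μ) := by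
      have : σ (x - e) = σ (t * w) := by rw [hxw]
      rw [map_sub, map_mul, hσe, hσt] at this
      rw [this, ← hμ]; ring
    have hμ0 : μ ≠ 0 := by
      rintro rfl
      apply hne
      have : σ x - e = x - e := by rw [hσw, hxw]; ring
      linear_combination this
    rw [hσx, hx] at hG
    have hG2 := hr.fG_eq (σ x) x
    rw [← hG, hσw, hxw, hρdef, hkk] at hG2
    have hdiff : σ x - x = t * μ := by linear_combination hσw - hxw
    rw [hdiff] at hG2
    set Sg : K := xc (W⁄K) (σ • P + P) + xc (W⁄K) (σ • P - P) - 2 * e with hSg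
    have hSgA : Sg ∈ A := sub_mem (add_mem hsA hdA) (mul_mem h2mem heA)
    have hkey : t ^ 2 * (Sg * μ ^ 2) = t ^ 2 * ((4 * t * w ^ 3 - 4 * ρ * w ^ 2 + 4 * k * w) +
        μ * (6 * t * w ^ 2 + 2 * t * μ * w - 4 * ρ * w + 2 * k)) := by
      rw [hSg]; linear_combination hG2
    have hkey' := mul_left_cancel₀ (pow_ne_zero 2 ht0) hkey
    apply hu'
    rw [hueq]
    have : 4 * t * w ^ 3 - 4 * ρ * w ^ 2 + 4 * k * w =
        μ * (Sg * μ) - μ * (6 * t * w ^ 2 + 2 * t * μ * w - 4 * ρ * w + 2 * k) := by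
      linear_combination -hkey'
    rw [this]
    refine nu_sub A (nu_mul_right A hμM (mul_mem hSgA hμA)) (nu_mul_right A hμM ?_)
    exact add_mem (sub_mem (add_mem (mul_mem (mul_mem h6mem htA) (pow_mem hw 2))
      (mul_mem (mul_mem (mul_mem h2mem htA) hμA) hw)) (mul_mem (mul_mem h4mem hρA) hw))
      (mul_mem h2mem hκ)
  -- Step 2
  rcases eq_or_eq_neg_of_xc_eq hσP0 hP (by rw [hσx, hx, hstep1]) with hfix | hneg
  · exact hfix
  exfalso
  obtain ⟨x', y, hxy, rfl⟩ := exists_some_of_ne_zero hP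
  simp only [xc_some] at hx
  subst hx
  obtain ⟨h1, e1⟩ := smul_some σ hxy
  have hneg2 : σ • (-(some x' y hxy : (W⁄K).Point)) = some x' y hxy := by
    have : σ • (-(some x' y hxy : (W⁄K).Point)) = -(σ • (some x' y hxy : (W⁄K).Point)) := by
      rw [algEquiv_smul_def, algEquiv_smul_def, (Point.map σ.toAlgHom).map_neg]
    rw [this, hneg, neg_neg]
  rw [neg_some] at hneg hneg2
  obtain ⟨h2, e2⟩ := smul_some σ ((nonsingular_neg x' y).mpr hxy)
  rw [e1] at hneg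
  rw [e2] at hneg2
  have hy1 : σ y = (W⁄K).negY x' y := by
    injection hneg
  have hy2 : σ ((W⁄K).negY x' y) = y := by
    injection hneg2
  obtain ⟨η, hη⟩ : ∃ η, (y - (W⁄K).negY x' y) / t = η := ⟨_, rfl⟩
  have hη2 : η ^ 2 = fF (W⁄K) x' / t ^ 2 := by
    rw [fF_eq_sq hxy.1, ← hη, div_pow]
  have hση : σ η = -η := by
    rw [← hη, map_div₀, map_sub, hy1, hy2, hσt]; ring
  have hηA : η ∈ A := by
    by_contra hn
    have h3 := inv_nu_of_not_mem A hn
    have hη0 : η ≠ 0 := by rintro rfl; exact hn A.zero_mem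
    have : (1 : K) ∈ A.nonunits := by
      have e3 : (1 : K) = η ^ 2 * (η⁻¹ * η⁻¹) := by field_simp
      rw [e3, hη2]
      exact nu_mul_left A hu (nu_mul_left A (nu_mem A h3) h3)
    rw [A.mem_nonunits_iff, map_one] at this
    exact lt_irrefl _ this
  have h5 := hσ2 η hηA
  rw [hση] at h5
  apply hu'
  rw [← hη2]
  have : η ^ 2 = (-η - η) * ((2 : K)⁻¹ * (2 : K)⁻¹ * (-η - η)) := by
    have := h2inv.1
    field_simp; ring
  rw [this]
  exact nu_mul_right A h5 (mul_mem (mul_mem h2inv.2 h2inv.2) (nu_mem A h5))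

end Fix

end Fermat.Agent.S05
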