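import Fermat.Agent.S05.Order

set_option autoImplicit false
set_option linter.unusedSectionVars false
set_option linter.unusedVariables false

/-!
# Integrality of points of prime order `p` at valuations with `p` a unit
-/

namespace Fermat.Agent.S05

open WeierstrassCurve WeierstrassCurve.Affine WeierstrassCurve.Affine.Point

section Val

variable {K : Type*} [Field K] (A : ValuationSubring K)

lemma nu_mul_left {a z : K} (ha : a ∈ A) (hz : z ∈ A.nonunits) : a * z ∈ A.nonunits := by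
  rw [ValuationSubring.mem_nonunits_iff] at hz ⊢
  rw [← ValuationSubring.valuation_le_one_iff] at ha
  rw [map_mul]
  calc A.valuation a * A.valuation z ≤ 1 * A.valuation z := mul_le_mul_left ha _
    _ = A.valuation z := one_mul _
    _ < 1 := hz

lemma nu_mul_right {a z : K} (hz : z ∈ A.nonunits) (ha : a ∈ A) : z * a ∈ A.nonunits := by
  rw [mul_comm]; exact nu_mul_left A ha hz

lemma nu_mem {z : K} (hz : z ∈ A.nonunits) : z ∈ A := A.nonunits_subset hz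

lemma nu_add {z w : K} (hz : z ∈ A.nonunits) (hw : w ∈ A.nonunits) : z + w ∈ A.nonunits :=
  add_mem hz hw

lemma nu_sub {z w : K} (hz : z ∈ A.nonunits) (hw : w ∈ A.nonunits) : z - w ∈ A.nonunits :=
  sub_mem hz hw

lemma nu_neg {z : K} (hz : z ∈ A.nonunits) : -z ∈ A.nonunits := neg_mem hz

lemma inv_nu_of_not_mem {x : K} (hx : x ∉ A) : x⁻¹ ∈ A.nonunits :=
  A.inv_mem_nonunits_iff.mpr (Or.inr hx)

/-- `1 - δ` is a unit congruent to `1`. -/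
lemma inv_one_sub {δ : K} (hδ : δ ∈ A.nonunits) :
    1 - δ ≠ 0 ∧ (1 - δ)⁻¹ ∈ A ∧ (1 - δ)⁻¹ - 1 ∈ A.nonunits := by
  have hv : A.valuation (1 - δ) = 1 :=
    Valuation.map_one_sub_of_lt _ ((ValuationSubring.mem_nonunits_iff A).mp hδ)
  have h0 : 1 - δ ≠ 0 := by
    intro h; rw [h, _root_.map_zero] at hv; exact zero_ne_one hv
  have hA : (1 - δ)⁻¹ ∈ A := by
    rw [← ValuationSubring.valuation_le_one_iff, map_inv₀, hv, inv_one]
  refine ⟨h0, hA, ?_⟩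
  have : (1 - δ)⁻¹ - 1 = (1 - δ)⁻¹ * δ := by
    field_simp; ring
  rw [this]
  exact nu_mul_left A hA hδ

lemma natCast_mem (n : ℕ) : (n : K) ∈ A := _root_.natCast_mem A n

end Val

section Integral

variable {K : Type*} [Field K] [DecidableEq K] {V : WeierstrassCurve.Affine K}
  (A : ValuationSubring K)

/-- one step of the recurrence for `ξ_k = x_1 / x_k`. -/
lemma integral_step (h2 : V.b₂ ∈ A) (h4 : V.b₄ ∈ A) (h6 : V.b₆ ∈ A) (h8 : V.b₈ ∈ A)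
    {u ξ ξ' xk x1 xk' y c c' : K} (hu : u ∈ A.nonunits) (hu0 : u ≠ 0)
    (hξ : ξ ∈ A) (hξ' : ξ' ∈ A) (hxk0 : xk ≠ 0) (hxk'0 : xk' ≠ 0)
    (hxk : xk⁻¹ = u * ξ) (hx1 : x1⁻¹ = u) (hxk' : xk'⁻¹ = u * ξ')
    (hG : (y + xk') * (xk - x1) ^ 2 = fG V xk x1)
    (hH : y * xk' * (xk - x1) ^ 2 = fH V xk x1)
    (hc : ξ - c ∈ A.nonunits) (hc' : ξ' - c' ∈ A.nonunits) :
    y ≠ 0 ∧ ∃ ξ'' ∈ A, y⁻¹ = u * ξ'' ∧ ξ'' - (2 * c + 2 - c') ∈ A.nonunits := by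
  have hξ0 : ξ ≠ 0 := by
    rintro rfl; rw [mul_zero] at hxk; exact hxk0 (inv_eq_zero.mp hxk)
  have hξ'0 : ξ' ≠ 0 := by
    rintro rfl; rw [mul_zero] at hxk'; exact hxk'0 (inv_eq_zero.mp hxk')
  have hxkE : xk = (u * ξ)⁻¹ := by rw [← hxk, inv_inv]
  have hx1E : x1 = u⁻¹ := by rw [← hx1, inv_inv]
  have hxk'E : xk' = (u * ξ')⁻¹ := by rw [← hxk', inv_inv]
  have huA : u ∈ A := nu_mem A hu
  set δ : K := u * (V.b₄ * u * ξ + V.b₆ * (1 + ξ) * u ^ 2 * ξ + V.b₈ * u ^ 3 * ξ ^ 2) with hδ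
  set γ' : K := u * (V.b₂ * ξ + V.b₄ * (1 + ξ) * u * ξ + V.b₆ * u ^ 2 * ξ ^ 2) with hγ'
  have hδM : δ ∈ A.nonunits := by
    apply nu_mul_right A hu
    have h1 : (1 : K) ∈ A := A.one_mem
    exact add_mem (add_mem (mul_mem (mul_mem h4 huA) hξ)
      (mul_mem (mul_mem (mul_mem h6 (add_mem h1 hξ)) (pow_mem huA 2)) hξ))
      (mul_mem (mul_mem h8 (pow_mem huA 3)) (pow_mem hξ 2))
  have hγ'M : γ' ∈ A.nonunits := by
    apply nu_mul_right A hu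
    have h1 : (1 : K) ∈ A := A.one_mem
    exact add_mem (add_mem (mul_mem h2 hξ)
      (mul_mem (mul_mem (mul_mem h4 (add_mem h1 hξ)) huA) hξ))
      (mul_mem (mul_mem h6 (pow_mem huA 2)) (pow_mem hξ 2))
  obtain ⟨hden0, hdenA, hdenM⟩ := inv_one_sub A hδM
  -- scaled identities
  have hHs : fH V xk x1 * (u ^ 2 * ξ) ^ 2 = 1 - δ := by
    rw [hxkE, hx1E, hδ]; simp only [fH]; field_simp; ring
  have hGs : fG V xk x1 * (u ^ 2 * ξ) ^ 2 = u * (2 * (1 + ξ) + γ') := by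
    rw [hxkE, hx1E, hγ']; simp only [fG]; field_simp; ring
  have hy0 : y ≠ 0 := by
    rintro rfl
    rw [zero_mul, zero_mul] at hH
    rw [← hH, zero_mul] at hHs
    exact hden0 hHs.symm
  have key : (y + xk') * (1 - δ) = y * xk' * (u * (2 * (1 + ξ) + γ')) := by
    rw [← hHs, ← hGs, ← hH, ← hG]; ring
  refine ⟨hy0, (2 * (1 + ξ) + γ') * (1 - δ)⁻¹ - ξ', ?_, ?_, ?_⟩
  · have h1 : (1 : K) ∈ A := A.one_mem
    have h2' : (2 : K) ∈ A := by exact_mod_cast natCast_mem A 2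
    exact sub_mem (mul_mem (add_mem (mul_mem h2' (add_mem h1 hξ)) (nu_mem A hγ'M)) hdenA) hξ'
  · have hx'' : xk' * (u * ξ') = 1 := by
      rw [hxk'E]; exact inv_mul_cancel₀ (mul_ne_zero hu0 hξ'0)
    have : y * (u * ((2 * (1 + ξ) + γ') * (1 - δ)⁻¹ - ξ')) = 1 := by
      have hk2 : y * xk' * (u * (2 * (1 + ξ) + γ')) * (1 - δ)⁻¹ = y + xk' := by
        rw [← key, mul_assoc, mul_inv_cancel₀ hden0, mul_one]
      have : xk' * (y * (u * ((2 * (1 + ξ) + γ') * (1 - δ)⁻¹ - ξ'))) = xk' * 1 := by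
        linear_combination hk2 - y * hx''
      exact mul_left_cancel₀ hxk'0 this
    exact inv_eq_of_mul_eq_one_right this
  · have h1 : (1 : K) ∈ A := A.one_mem
    have h2' : (2 : K) ∈ A := by exact_mod_cast natCast_mem A 2
    have e : (2 * (1 + ξ) + γ') * (1 - δ)⁻¹ - ξ' - (2 * c + 2 - c') =
        (2 * (1 + ξ) + γ') * ((1 - δ)⁻¹ - 1) + γ' + 2 * (ξ - c) - (ξ' - c') := by ring
    rw [e]
    exact nu_sub A (nu_add A (nu_add A (nu_mul_left A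
      (add_mem (mul_mem h2' (add_mem h1 hξ)) (nu_mem A hγ'M)) hdenM) hγ'M)
      (nu_mul_left A h2' hc)) hc'

/-- the duplication step. -/
lemma integral_dbl (h2 : V.b₂ ∈ A) (h4 : V.b₄ ∈ A) (h6 : V.b₆ ∈ A) (h8 : V.b₈ ∈ A)
    {u x1 y : K} (hu : u ∈ A.nonunits) (hu0 : u ≠ 0) (hx1 : x1⁻¹ = u)
    (hF : fF V x1 ≠ 0) (hD : y * fF V x1 = fD V x1) :
    y ≠ 0 ∧ ∃ ξ'' ∈ A, y⁻¹ = u * ξ'' ∧ ξ'' - 4 ∈ A.nonunits := by
  have hx1E : x1 = u⁻¹ := by rw [← hx1, inv_inv]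
  have huA : u ∈ A := nu_mem A hu
  set δ : K := u * (V.b₄ * u + 2 * V.b₆ * u ^ 2 + V.b₈ * u ^ 3) with hδ
  set γ' : K := u * (V.b₂ + 2 * V.b₄ * u + V.b₆ * u ^ 2) with hγ'
  have h2' : (2 : K) ∈ A := by exact_mod_cast natCast_mem A 2
  have h4' : (4 : K) ∈ A := by exact_mod_cast natCast_mem A 4
  have hδM : δ ∈ A.nonunits := by
    apply nu_mul_right A hu
    exact add_mem (add_mem (mul_mem h4 huA) (mul_mem (mul_mem h2' h6) (pow_mem huA 2)))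
      (mul_mem h8 (pow_mem huA 3))
  have hγ'M : γ' ∈ A.nonunits := by
    apply nu_mul_right A hu
    exact add_mem (add_mem h2 (mul_mem (mul_mem h2' h4) huA)) (mul_mem h6 (pow_mem huA 2))
  obtain ⟨hden0, hdenA, hdenM⟩ := inv_one_sub A hδM
  have hDs : fD V x1 * u ^ 4 = 1 - δ := by
    rw [hx1E, hδ]; simp only [fD]; field_simp; ring
  have hFs : fF V x1 * u ^ 4 = u * (4 + γ') := by
    rw [hx1E, hγ']; simp only [fF]; field_simp; ring
  have hy0 : y ≠ 0 := by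
    rintro rfl
    rw [zero_mul] at hD
    rw [← hD, zero_mul] at hDs
    exact hden0 hDs.symm
  refine ⟨hy0, (4 + γ') * (1 - δ)⁻¹, mul_mem (add_mem h4' (nu_mem A hγ'M)) hdenA, ?_, ?_⟩
  · have : y * (u * ((4 + γ') * (1 - δ)⁻¹)) = 1 := by
      have : y * (u * (4 + γ')) = 1 - δ := by rw [← hFs, ← hDs, ← hD]; ring
      calc y * (u * ((4 + γ') * (1 - δ)⁻¹)) = (y * (u * (4 + γ'))) * (1 - δ)⁻¹ := by ring
        _ = 1 := by rw [this, mul_inv_cancel₀ hden0]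
    exact inv_eq_of_mul_eq_one_right this
  · have e : (4 + γ') * (1 - δ)⁻¹ - 4 = (4 + γ') * ((1 - δ)⁻¹ - 1) + γ' := by ring
    rw [e]
    exact nu_add A (nu_mul_left A (add_mem h4' (nu_mem A hγ'M)) hdenM) hγ'M

/-- **Integrality**: the `x`-coordinate of a point of prime order `p ≥ 5` is integral at every
valuation ring in which the curve is integral and `p` is a unit. -/
theorem xSeq_integral (h2 : V.b₂ ∈ A) (h4 : V.b₄ ∈ A) (h6 : V.b₆ ∈ A) (h8 : V.b₈ ∈ A)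
    {p : ℕ} (hp5 : 5 ≤ p) (hodd : Odd p) (hpA : (p : K) ∉ A.nonunits)
    {x : ℕ → K} (hx : XSeq V p x) : x 1 ∈ A := by
  by_contra hx1
  obtain ⟨h, rfl⟩ := hodd
  set u : K := (x 1)⁻¹ with hu
  have huM : u ∈ A.nonunits := inv_nu_of_not_mem A hx1
  have hx10 : x 1 ≠ 0 := by
    intro h0; exact hx1 (h0 ▸ A.zero_mem)
  have hu0 : u ≠ 0 := inv_ne_zero hx10
  have main : ∀ n : ℕ, n + 2 ≤ h + 1 →
      (x (n + 1) ≠ 0 ∧ ∃ ξ ∈ A, (x (n + 1))⁻¹ = u * ξ ∧ ξ - ((n + 1 : ℕ) : K) ^ 2 ∈ A.nonunits) ∧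
      (x (n + 2) ≠ 0 ∧ ∃ ξ ∈ A, (x (n + 2))⁻¹ = u * ξ ∧ ξ - ((n + 2 : ℕ) : K) ^ 2 ∈ A.nonunits) := by
    intro n
    induction n with
    | zero =>
      intro _
      refine ⟨⟨hx10, 1, A.one_mem, by simp [hu], by simp⟩, ?_⟩
      obtain ⟨hy0, ξ, hξ, h1, h2'⟩ := integral_dbl A h2 h4 h6 h8 huM hu0 hu.symm
        (hx.dblF 1 one_pos (by omega)) (hx.dbl 1 one_pos (by omega))
      refine ⟨hy0, ξ, hξ, h1, ?_⟩
      have : ((0 + 2 : ℕ) : K) ^ 2 = 4 := by norm_num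
      rw [this]; exact h2'
    | succ n ih =>
      intro hn
      obtain ⟨⟨ha0, ξ', hξ', ha1, ha2⟩, ⟨hb0, ξ, hξ, hb1, hb2⟩⟩ := ih (by omega)
      refine ⟨⟨hb0, ξ, hξ, hb1, hb2⟩, ?_⟩
      have hG := hx.addG (n + 2) 1 one_pos (by omega) (by omega)
      have hH := hx.mulH (n + 2) 1 one_pos (by omega) (by omega)
      have e1 : n + 2 + 1 = n + 1 + 2 := by omega
      have e2 : n + 2 - 1 = n + 1 := by omega
      rw [e1, e2] at hG hH
      obtain ⟨hy0, ξ'', hξ'', h1, h2'⟩ := integral_step A h2 h4 h6 h8 huM hu0 hξ hξ' hb0 ha0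
        hb1 hu.symm ha1 hG hH hb2 ha2
      refine ⟨hy0, ξ'', hξ'', h1, ?_⟩
      have : ((n + 1 + 2 : ℕ) : K) ^ 2 =
          2 * ((n + 2 : ℕ) : K) ^ 2 + 2 - ((n + 1 : ℕ) : K) ^ 2 := by
        push_cast; ring
      rw [this]; exact h2'
  have hh : 2 ≤ h := by omega
  obtain ⟨⟨ha0, ξ', hξ', ha1, ha2⟩, ⟨hb0, ξ, hξ, hb1, hb2⟩⟩ := main (h - 1) (by omega)
  have e1 : h - 1 + 1 = h := by omega
  have e2 : h - 1 + 2 = h + 1 := by omega
  rw [e1] at ha0 ha1 ha2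
  rw [e2] at hb0 hb1 hb2
  have hsym := hx.sym h (by omega) (by omega)
  have e3 : 2 * h + 1 - h = h + 1 := by omega
  rw [e3] at hsym
  rw [hsym, ha1] at hb1
  have hξξ : ξ' = ξ := mul_left_cancel₀ hu0 hb1
  subst hξξ
  apply hpA
  have : ((2 * h + 1 : ℕ) : K) = (ξ' - ((h : ℕ) : K) ^ 2) - (ξ' - ((h + 1 : ℕ) : K) ^ 2) := by
    push_cast; ring
  rw [this]
  exact nu_sub A ha2 hb2

end Integral

end Fermat.Agent.S05
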