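import Fermat.Agent.S05.Inertia

set_option autoImplicit false
set_option linter.unusedSectionVars false
set_option linter.unusedVariables false

/-!
# The local theorem: inertia at `q ≠ 2, p` acts trivially on `E[p]`
for `y² = (x-e)(x-e')(x-e'')`-type curves with `ord (e' - e) ∈ p ℤ`, the other differences units.
-/

namespace Fermat.Agent.S05

open WeierstrassCurve WeierstrassCurve.Affine WeierstrassCurve.Affine.Point

section Units

variable {K : Type*} [Field K] (A : ValuationSubring K)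

lemma val_one_iff {z : K} : A.valuation z = 1 ↔ z ∈ A ∧ z ∉ A.nonunits := by
  rw [← A.valuation_le_one_iff, A.mem_nonunits_iff, not_lt]
  exact ⟨fun h => ⟨h.le, h.ge⟩, fun h => le_antisymm h.1 h.2⟩

lemma nu_of_sq {z : K} (hz : z ^ 2 ∈ A.nonunits) : z ∈ A.nonunits := by
  rw [A.mem_nonunits_iff] at hz ⊢
  rw [map_pow] at hz
  by_contra hge
  push Not at hge
  exact absurd hz (not_lt.mpr (one_le_pow₀ hge))

end Units

section No2

variable {K : Type*} [Field K] [DecidableEq K] {V : WeierstrassCurve.Affine K}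
  {A : ValuationSubring K} {e e' e'' : K} {p : ℕ}

/-- A point of order `p` does not reduce to a nonsingular `2`-torsion point. -/
lemma no2 (hr : Roots V e e' e'') (he : e ∈ A) (he' : e' ∈ A) (he'' : e'' ∈ A)
    (hp : p.Prime) (hp5 : 5 ≤ p)
    (hint : ∀ R : V.Point, R ≠ 0 → p • R = 0 → xc V R ∈ A)
    (hκ : A.valuation ((e' - e) * (e'' - e)) = 1)
    {P : V.Point} (hP : P ≠ 0) (hpP : p • P = 0) : A.valuation (xc V P - e) = 1 := by
  have hxA := hint P hP hpP
  rw [val_one_iff]
  refine ⟨sub_mem hxA he, fun hX => ?_⟩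
  have h2P : P + P ≠ 0 := by
    have := nsmul_ne_zero_of_lt hp hP hpP (k := 2) (by omega) (by omega)
    rwa [two_nsmul] at this
  have h2A := hint (P + P) h2P (by rw [nsmul_add, hpP, add_zero])
  obtain ⟨-, hd⟩ := xc_two_nsmul hP h2P
  have h1 := hr.fD_eq (xc V P)
  have h2 := hr.fF_eq (xc V P)
  rw [← hd] at h1
  have h4mem : (4 : K) ∈ A := by exact_mod_cast natCast_mem A 4
  have hF : fF V (xc V P) ∈ A.nonunits := by
    rw [h2]
    have hXA := nu_mem A hX
    have : 4 * (xc V P - e) * (xc V P - e - (e' - e)) * (xc V P - e - (e'' - e)) =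
      (xc V P - e) * (4 * (xc V P - e - (e' - e)) * (xc V P - e - (e'' - e))) := by ring
    rw [this]
    exact nu_mul_right A hX (mul_mem (mul_mem h4mem (sub_mem hXA (sub_mem he' he)))
      (sub_mem hXA (sub_mem he'' he)))
  have h3 : ((xc V P - e) ^ 2 - (e' - e) * (e'' - e)) ^ 2 ∈ A.nonunits := by
    rw [← h1]
    have : xc V (P + P) * fF V (xc V P) - e * fF V (xc V P) =
      (xc V (P + P) - e) * fF V (xc V P) := by ring
    rw [this]
    exact nu_mul_left A (sub_mem h2A he) hF
  have h4 := nu_of_sq A h3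
  have h5 : (e' - e) * (e'' - e) ∈ A.nonunits := by
    have : (e' - e) * (e'' - e) =
      (xc V P - e) * (xc V P - e) - ((xc V P - e) ^ 2 - (e' - e) * (e'' - e)) := by ring
    rw [this]
    exact nu_sub A (nu_mul_left A (nu_mem A hX) hX) h4
  exact ((val_one_iff A).mp hκ).2 h5

end No2

section Local

variable {K : Type*} [Field K] [DecidableEq K] [CharZero K] [Algebra ℚ K]
  [Algebra.IsAlgebraic ℚ K] {W : WeierstrassCurve.Affine ℚ}

local notation "ι" => algebraMap ℚ K

theorem local_unramified (A : ValuationSubring K) {q p : ℕ} (hq : q.Prime)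
    (hqA : (q : K) ∈ A.nonunits) (hq2 : q ≠ 2) (hp : p.Prime) (hp5 : 5 ≤ p) (hpq : p ≠ q)
    {e e' e'' : ℚ} (hr : Roots (W⁄K) (ι e) (ι e') (ι e''))
    (he : ι e ∈ A) (he' : ι e' ∈ A) (he'' : ι e'' ∈ A)
    (hr2 : A.valuation (ι e'' - ι e) = 1) (hr3 : A.valuation (ι e'' - ι e') = 1)
    {s : ℕ} {u : K} (hu : A.valuation u = 1) (hr1 : ι e' - ι e = (q : K) ^ (p * s) * u)
    {σ : K ≃ₐ[ℚ] K} (hσ : σ ∈ A.inertiaSubgroupIn ℚ)
    {P : (W⁄K).Point} (hpP : p • P = 0) : σ • P = P := by
  by_cases hP : P = 0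
  · rw [hP, algEquiv_smul_def, Point.map_zero]
  obtain ⟨hσ1, hσ2⟩ := inertia_spec A hσ
  have hv : ∀ n : ℕ, n.Prime → n ≠ q → A.valuation (n : K) = 1 := by
    intro n hn hnq
    have := val_int_of_not_dvd A hq hqA (n := (n : ℤ)) (by
      intro hd
      have := (Nat.prime_dvd_prime_iff_eq hq hn).mp (by exact_mod_cast hd)
      exact hnq this.symm)
    simpa using this
  have hvp := hv p hp hpq
  have hv2 : A.valuation (2 : K) = 1 := by simpa using hv 2 Nat.prime_two hq2.symm
  have hv4 : A.valuation (4 : K) = 1 := by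
    have : (4 : K) = 2 * 2 := by norm_num
    rw [this, map_mul, hv2, one_mul]
  have hpA := ((val_one_iff A).mp hvp).2
  have h2A := ((val_one_iff A).mp hv2).2
  have hint : ∀ R : (W⁄K).Point, R ≠ 0 → p • R = 0 → xc (W⁄K) R ∈ A := fun R hR hpR =>
    xc_mem_of_torsion hr he he' he'' hp hp5 hpA hR hpR
  have hρA : (ι e' - ι e) + (ι e'' - ι e) ∈ A := add_mem (sub_mem he' he) (sub_mem he'' he)
  have hσe : σ (ι e) = ι e := σ.commutes e
  -- the third root is never hit
  have hU'' : A.valuation (xc (W⁄K) P - ι e'') = 1 := by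
    apply no2 hr.rot.rot he'' he he' hp hp5 hint _ hP hpP
    rw [map_mul, ← neg_sub, Valuation.map_neg, hr2, ← neg_sub, Valuation.map_neg, hr3, one_mul]
  -- the case where `fF x` is a unit
  have hunit : A.valuation (xc (W⁄K) P - ι e) = 1 → A.valuation (xc (W⁄K) P - ι e') = 1 →
      σ • P = P := by
    intro h1 h2
    have hF : A.valuation (fF (W⁄K) (xc (W⁄K) P)) = 1 := by
      rw [hr.fF_eq, map_mul, map_mul, map_mul, hv4, h1]
      have e1 : xc (W⁄K) P - ι e - (ι e' - ι e) = xc (W⁄K) P - ι e' := by ring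
      have e2 : xc (W⁄K) P - ι e - (ι e'' - ι e) = xc (W⁄K) P - ι e'' := by ring
      rw [e1, e2, h2, hU'']; simp
    have hF' := (val_one_iff A).mp hF
    exact inertia_fix hσ2 hr hσe he hρA hint h2A hP hpP (t := 1) one_ne_zero A.one_mem
      (map_one σ) (by simpa using ((val_one_iff A).mp h1).1)
      (by simpa using mul_mem (sub_mem he' he) (sub_mem he'' he))
      (by simpa using hF'.1) (by simpa using hF'.2)
  rcases Nat.eq_zero_or_pos s with hs | hs
  · -- good reduction
    subst hs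
    have hr1' : A.valuation (ι e' - ι e) = 1 := by rw [hr1]; simpa using hu
    apply hunit
    · apply no2 hr he he' he'' hp hp5 hint _ hP hpP
      rw [map_mul, hr1', hr2, one_mul]
    · apply no2 hr.rot he' he'' he hp hp5 hint _ hP hpP
      rw [map_mul, hr3, ← neg_sub, Valuation.map_neg, hr1', one_mul]
  · -- multiplicative reduction
    have hq0 : (q : K) ≠ 0 := by exact_mod_cast hq.ne_zero
    have hr1M : ι e' - ι e ∈ A.nonunits := by
      rw [hr1]
      have hps : p * s = (p * s - 1) + 1 := by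
        have := Nat.mul_pos hp.pos hs; omega
      rw [hps, pow_succ]
      exact nu_mul_right A (nu_mul_left A (pow_mem (nu_mem A hqA) _) hqA) ((val_one_iff A).mp hu).1
    by_cases hX : xc (W⁄K) P - ι e ∈ A.nonunits
    · obtain ⟨ord, hord, hordq⟩ := exists_isOrd A hq hqA
      have hu0 : u ≠ 0 := by
        rintro rfl; rw [_root_.map_zero] at hu; exact zero_ne_one hu
      have hordu : ord u = 0 :=
        hord.eq_zero_of_unit ((val_one_iff A).mp hu).1 ((val_one_iff A).mp hu).2
      have hN1 : ord (ι e' - ι e) = ((p * s : ℕ) : ℚ) := by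
        rw [hr1, hord.mul _ _ (pow_ne_zero _ hq0) hu0, hord.pow hq0, hordq, hordu]; ring
      have hr10 : ι e' - ι e ≠ 0 := by rw [hr1]; exact mul_ne_zero (pow_ne_zero _ hq0) hu0
      have hr20 : ι e'' - ι e ≠ 0 := by
        intro h0; rw [h0, _root_.map_zero] at hr2; exact zero_ne_one hr2
      have hN2 : ord (ι e'' - ι e) = 0 :=
        hord.eq_zero_of_unit ((val_one_iff A).mp hr2).1 ((val_one_iff A).mp hr2).2
      have hNpos : (0 : ℚ) < ((p * s : ℕ) : ℚ) := by exact_mod_cast Nat.mul_pos hp.pos hs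
      have hX0 : xc (W⁄K) P - ι e ≠ 0 := by
        have := (ySeq_of_xSeq hr (hp.odd_of_ne_two (by omega))
          (xSeq_of_prime_order hp hP hpP)).ne0 1 one_pos (by omega)
        simpa using this
      obtain ⟨j, hj, hjX, hlt⟩ := node_ord hord hr he he' he'' hp hp5 hpA h2A hNpos hr10 hr20
        hN1 hN2 hP hpP ((hord.pos_iff hX0).mpr hX)
      have hpQ : (p : ℚ) ≠ 0 := by exact_mod_cast hp.ne_zero
      have hc : ord (xc (W⁄K) P - ι e) = ((2 * s * j : ℕ) : ℚ) := by
        rw [hjX]; push_cast; field_simp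
      set c : ℕ := 2 * s * j with hcdef
      have ht0 : (q : K) ^ c ≠ 0 := pow_ne_zero _ hq0
      have hordt : ord ((q : K) ^ c) = c := by rw [hord.pow hq0, hordq, mul_one]
      have hv40 : (4 : K) ≠ 0 := by
        intro h0; rw [h0, _root_.map_zero] at hv4; exact zero_ne_one hv4
      have hord4 : ord (4 : K) = 0 :=
        hord.eq_zero_of_unit ((val_one_iff A).mp hv4).1 ((val_one_iff A).mp hv4).2
      rw [hc] at hlt
      have hcpos : (0 : ℚ) < c := by
        rw [← hc]; exact (hord.pos_iff hX0).mpr hX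
      -- ord of fF x
      have o1 : ord (xc (W⁄K) P - ι e - (ι e' - ι e)) = c := by
        rw [hord.sub_eq_of_lt hX0 hr10 (by rw [hc, hN1]; exact hlt), hc]
      have o2 : ord (xc (W⁄K) P - ι e - (ι e'' - ι e)) = 0 := by
        rw [hord.sub_eq_of_gt hX0 hr20 (by rw [hc, hN2]; exact hcpos), hN2]
      have n1 : xc (W⁄K) P - ι e - (ι e' - ι e) ≠ 0 := by
        have := hord.add_ne_zero_of_lt (x := xc (W⁄K) P - ι e) (y := -(ι e' - ι e))
          (by rw [hord.neg, hc, hN1]; exact hlt)
        rwa [← sub_eq_add_neg] at this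
      have n2 : xc (W⁄K) P - ι e - (ι e'' - ι e) ≠ 0 := by
        have e2 : xc (W⁄K) P - ι e - (ι e'' - ι e) = xc (W⁄K) P - ι e'' := by ring
        rw [e2]
        intro h0; rw [h0, _root_.map_zero] at hU''; exact zero_ne_one hU''
      have hF0 : fF (W⁄K) (xc (W⁄K) P) ≠ 0 := by
        rw [hr.fF_eq]; exact mul_ne_zero (mul_ne_zero (mul_ne_zero hv40 hX0) n1) n2
      have oF : ord (fF (W⁄K) (xc (W⁄K) P) / ((q : K) ^ c) ^ 2) = 0 := by
        rw [hord.div hF0 (pow_ne_zero 2 ht0), hord.pow ht0, hordt, hr.fF_eq,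
          hord.mul _ _ (mul_ne_zero (mul_ne_zero hv40 hX0) n1) n2,
          hord.mul _ _ (mul_ne_zero hv40 hX0) n1, hord.mul _ _ hv40 hX0, hord4, hc, o1, o2]
        push_cast; ring
      have hFu := hord.unit_of_eq_zero (div_ne_zero hF0 (pow_ne_zero 2 ht0)) oF
      refine inertia_fix hσ2 hr hσe he hρA hint h2A hP hpP (t := (q : K) ^ c) ht0
        (pow_mem (nu_mem A hqA) _) (by rw [map_pow, map_natCast]) ?_ ?_ hFu.1 hFu.2
      · apply (hord.nonneg_iff _ (div_ne_zero hX0 ht0)).mp
        rw [hord.div hX0 ht0, hc, hordt, sub_self]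
      · apply (hord.nonneg_iff _ (div_ne_zero (mul_ne_zero hr10 hr20) ht0)).mp
        rw [hord.div (mul_ne_zero hr10 hr20) ht0, hord.mul _ _ hr10 hr20, hN1, hN2, hordt]
        linarith
    · have hXu : A.valuation (xc (W⁄K) P - ι e) = 1 :=
        (val_one_iff A).mpr ⟨sub_mem (hint P hP hpP) he, hX⟩
      apply hunit hXu
      rw [val_one_iff]
      refine ⟨sub_mem (hint P hP hpP) he', fun hm => hX ?_⟩
      have : xc (W⁄K) P - ι e = (xc (W⁄K) P - ι e') + (ι e' - ι e) := by ring
      rw [this]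
      exact nu_add A hm hr1M

end Local

end Fermat.Agent.S05
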