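import Fermat.Agent.S05.Ord

set_option autoImplicit false
set_option linter.unusedSectionVars false
set_option linter.unusedVariables false

/-!
# Valuations of `x(kQ) - e` near a node
-/

namespace Fermat.Agent.S05

open WeierstrassCurve WeierstrassCurve.Affine WeierstrassCurve.Affine.Point

section Roots

variable {K : Type*} [Field K]

/-- The `2`-division polynomial of `V` is `4 (x - e) (x - e') (x - e'')`. -/
structure Roots (V : WeierstrassCurve.Affine K) (e e' e'' : K) : Prop where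
  b2 : V.b₂ = -4 * (e + e' + e'')
  b4 : V.b₄ = 2 * (e * e' + e * e'' + e' * e'')
  b6 : V.b₆ = -4 * (e * e' * e'')
  b8 : V.b₈ = 4 * (e + e' + e'') * (e * e' * e'') - (e * e' + e * e'' + e' * e'') ^ 2

variable {V : WeierstrassCurve.Affine K} {e e' e'' : K}

lemma Roots.fF_eq (hr : Roots V e e' e'') (x : K) :
    fF V x = 4 * (x - e) * ((x - e) - (e' - e)) * ((x - e) - (e'' - e)) := by
  simp only [fF, hr.b2, hr.b4, hr.b6]; ring

lemma Roots.fD_eq (hr : Roots V e e' e'') (x : K) :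
    fD V x - e * fF V x = ((x - e) ^ 2 - (e' - e) * (e'' - e)) ^ 2 := by
  simp only [fF, fD, hr.b2, hr.b4, hr.b6, hr.b8]; ring

lemma Roots.fH_eq (hr : Roots V e e' e'') (x₁ x₂ : K) :
    fH V x₁ x₂ - e * fG V x₁ x₂ + e ^ 2 * (x₁ - x₂) ^ 2 =
      ((x₁ - e) * (x₂ - e) - (e' - e) * (e'' - e)) ^ 2 := by
  simp only [fH, fG, hr.b2, hr.b4, hr.b6, hr.b8]; ring

lemma Roots.fG_eq (hr : Roots V e e' e'') (x₁ x₂ : K) :
    fG V x₁ x₂ - 2 * e * (x₁ - x₂) ^ 2 =
      2 * ((x₁ - e) + (x₂ - e)) * ((x₁ - e) * (x₂ - e))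
        - 4 * ((e' - e) + (e'' - e)) * ((x₁ - e) * (x₂ - e))
        + 2 * ((e' - e) * (e'' - e)) * ((x₁ - e) + (x₂ - e)) := by
  simp only [fG, hr.b2, hr.b4, hr.b6]; ring

lemma Roots.rot (hr : Roots V e e' e'') : Roots V e' e'' e :=
  ⟨by rw [hr.b2]; ring, by rw [hr.b4]; ring, by rw [hr.b6]; ring, by rw [hr.b8]; ring⟩

lemma Roots.swap (hr : Roots V e e' e'') : Roots V e e'' e' :=
  ⟨by rw [hr.b2]; ring, by rw [hr.b4]; ring, by rw [hr.b6]; ring, by rw [hr.b8]; ring⟩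

end Roots

section YSeq

variable {K : Type*} [Field K]

/-- The shifted sequence `X k = x(kQ) - e`. -/
structure YSeq (p : ℕ) (r₁ r₂ : K) (X : ℕ → K) : Prop where
  ne0 : ∀ k, 0 < k → k < p → X k ≠ 0
  sym : ∀ k, 0 < k → k < p → X (p - k) = X k
  ne : ∀ i j, 0 < j → j < i → i + j < p → X i ≠ X j
  mulK : ∀ i j, 0 < j → j < i → i + j < p →
    X (i + j) * X (i - j) * (X i - X j) ^ 2 = (X i * X j - r₁ * r₂) ^ 2
  dblne1 : ∀ k, 0 < k → 2 * k < p → X k - r₁ ≠ 0
  dblne2 : ∀ k, 0 < k → 2 * k < p → X k - r₂ ≠ 0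
  dblK : ∀ k, 0 < k → 2 * k < p →
    X (2 * k) * (4 * X k * (X k - r₁) * (X k - r₂)) = (X k ^ 2 - r₁ * r₂) ^ 2

lemma ySeq_of_xSeq [DecidableEq K] {V : WeierstrassCurve.Affine K} {e e' e'' : K}
    (hr : Roots V e e' e'') {p : ℕ} (hodd : Odd p) {x : ℕ → K} (hx : XSeq V p x) :
    YSeq p (e' - e) (e'' - e) (fun k => x k - e) := by
  have hF : ∀ k, 0 < k → 2 * k < p →
      4 * (x k - e) * ((x k - e) - (e' - e)) * ((x k - e) - (e'' - e)) ≠ 0 := by
    intro k hk hkp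
    rw [← hr.fF_eq]; exact hx.dblF k hk hkp
  have h0 : ∀ k, 0 < k → 2 * k < p → x k - e ≠ 0 := by
    intro k hk hkp h
    apply hF k hk hkp; rw [h]; ring
  refine ⟨?_, ?_, ?_, ?_, ?_, ?_, ?_⟩
  · intro k hk hkp
    by_cases h2 : 2 * k < p
    · exact h0 k hk h2
    · have hne : 2 * k ≠ p := by
        rintro rfl; exact (Nat.not_odd_iff_even.mpr (even_two_mul k)) hodd
      have := h0 (p - k) (by omega) (by omega)
      rwa [hx.sym k hk hkp] at this
  · intro k hk hkp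
    simp only [hx.sym k hk hkp]
  · intro i j hj hji hij h
    exact hx.ne i j hj hji hij (by linear_combination h)
  · intro i j hj hji hij
    have h1 := hx.addG i j hj hji hij
    have h2 := hx.mulH i j hj hji hij
    have h3 := hr.fH_eq (x i) (x j)
    rw [← h3, ← h1, ← h2]; ring
  · intro k hk hkp h
    apply hF k hk hkp; rw [h]; ring
  · intro k hk hkp h
    apply hF k hk hkp; rw [h]; ring
  · intro k hk hkp
    have h1 := hx.dbl k hk hkp
    have h2 := hr.fD_eq (x k)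
    have h3 := hr.fF_eq (x k)
    rw [← h2, ← h1, ← h3]; ring

end YSeq

section MLemmas

variable {K : Type*} [Field K] {A : ValuationSubring K} {ord : K → ℚ} (h : IsOrd A ord)
include h

/-- valuation of `u - κ`. -/
lemma ord_sub_kappa {u κ : K} {N : ℚ} (hu : u ≠ 0) (hκ : κ ≠ 0) (hN : ord κ = N)
    (huκ : u - κ ≠ 0) :
    (ord u < N → ord (u - κ) = ord u) ∧ (N < ord u → ord (u - κ) = N) ∧
      (ord u = N → N ≤ ord (u - κ)) := by
  refine ⟨fun hlt => h.sub_eq_of_lt hu hκ (by rwa [hN]), fun hlt => ?_, fun heq => ?_⟩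
  · rw [h.sub_eq_of_gt hu hκ (by rwa [hN]), hN]
  · have := h.sub_ge hu hκ huκ
    rw [hN, heq, min_self] at this; exact this

variable {p : ℕ} {r₁ r₂ : K} {X : ℕ → K} {N : ℚ}

/-- `ord` form of the product formula. -/
lemma ySeq_ord_mulK (hY : YSeq p r₁ r₂ X) {i j : ℕ} (hj : 0 < j) (hji : j < i) (hij : i + j < p) :
    X i * X j - r₁ * r₂ ≠ 0 ∧
    ord (X (i + j)) + ord (X (i - j)) + 2 * ord (X i - X j) = 2 * ord (X i * X j - r₁ * r₂) := by
  have h1 := hY.mulK i j hj hji hij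
  have a1 := hY.ne0 (i + j) (by omega) hij
  have a2 := hY.ne0 (i - j) (by omega) (by omega)
  have a3 : X i - X j ≠ 0 := sub_ne_zero.mpr (hY.ne i j hj hji hij)
  have a4 : X i * X j - r₁ * r₂ ≠ 0 := by
    intro h0
    rw [h0] at h1
    have : X (i + j) * X (i - j) * (X i - X j) ^ 2 ≠ 0 :=
      mul_ne_zero (mul_ne_zero a1 a2) (pow_ne_zero 2 a3)
    exact this (by rw [h1]; ring)
  refine ⟨a4, ?_⟩
  have := congrArg ord h1
  rw [h.mul _ _ (mul_ne_zero a1 a2) (pow_ne_zero 2 a3), h.mul _ _ a1 a2, h.pow a3, h.pow a4] at this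
  push_cast at this
  exact this

/-- `ord` form of the duplication formula. -/
lemma ySeq_ord_dblK (hY : YSeq p r₁ r₂ X) (h4 : ord (4 : K) = 0) (h40 : (4 : K) ≠ 0)
    {k : ℕ} (hk : 0 < k) (hkp : 2 * k < p) :
    X k ^ 2 - r₁ * r₂ ≠ 0 ∧
    ord (X (2 * k)) + ord (X k) + ord (X k - r₁) + ord (X k - r₂) =
      2 * ord (X k ^ 2 - r₁ * r₂) := by
  have h1 := hY.dblK k hk hkp
  have a1 := hY.ne0 (2 * k) (by omega) hkp
  have a2 := hY.ne0 k hk (by omega)
  have a3 := hY.dblne1 k hk hkp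
  have a4 := hY.dblne2 k hk hkp
  have a5 : X k ^ 2 - r₁ * r₂ ≠ 0 := by
    intro h0
    rw [h0] at h1
    have : X (2 * k) * (4 * X k * (X k - r₁) * (X k - r₂)) ≠ 0 :=
      mul_ne_zero a1 (mul_ne_zero (mul_ne_zero (mul_ne_zero h40 a2) a3) a4)
    exact this (by rw [h1]; ring)
  refine ⟨a5, ?_⟩
  have := congrArg ord h1
  rw [h.mul _ _ a1 (mul_ne_zero (mul_ne_zero (mul_ne_zero h40 a2) a3) a4),
    h.mul _ _ (mul_ne_zero (mul_ne_zero h40 a2) a3) a4, h.mul _ _ (mul_ne_zero h40 a2) a3,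
    h.mul _ _ h40 a2, h4, h.pow a5] at this
  push_cast at this
  linarith

/-- (M1) a point deep in the node doubles out of it. -/
lemma ySeq_M1 (hY : YSeq p r₁ r₂ X) (h4 : ord (4 : K) = 0) (h40 : (4 : K) ≠ 0)
    (hp : 2 < p) (hr1 : r₁ ≠ 0) (hr2 : r₂ ≠ 0) (hN1 : ord r₁ = N) (hN2 : ord r₂ = 0)
    (hpos : 0 < ord (X 1)) (hge : N ≤ ord (X 1)) (hN : 0 ≤ N) :
    ord (X 2) ≤ N - ord (X 1) := by
  obtain ⟨a5, e⟩ := ySeq_ord_dblK h hY h4 h40 (k := 1) one_pos (by omega)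
  have a2 := hY.ne0 1 one_pos (by omega)
  have a3 := hY.dblne1 1 one_pos (by omega)
  have hκ : ord (r₁ * r₂) = N := by rw [h.mul _ _ hr1 hr2, hN1, hN2, add_zero]
  have e1 : ord (X 1 ^ 2 - r₁ * r₂) = N := by
    apply (ord_sub_kappa h (pow_ne_zero 2 a2) (mul_ne_zero hr1 hr2) hκ a5).2.1
    rw [h.pow a2]; push_cast; linarith
  have e2 : ord (X 1 - r₂) = 0 := by
    rw [h.sub_eq_of_gt a2 hr2 (by rw [hN2]; exact hpos), hN2]
  have e3 : N ≤ ord (X 1 - r₁) := by
    have := h.sub_ge a2 hr1 a3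
    rw [hN1] at this
    exact le_trans (le_min hge le_rfl) this
  rw [e1, e2] at e
  simp only [mul_one] at e
  linarith

/-- (M2) if `x(Q)` does not reduce to the node, neither does any multiple. -/
lemma ySeq_M2 (hY : YSeq p r₁ r₂ X) (h4 : ord (4 : K) = 0) (h40 : (4 : K) ≠ 0)
    (hp : 2 < p) (hr1 : r₁ ≠ 0) (hr2 : r₂ ≠ 0) (hN1 : ord r₁ = N) (hN2 : ord r₂ = 0)
    (hN : 0 < N) (hint : ∀ k, 0 < k → k < p → 0 ≤ ord (X k)) (h1 : ord (X 1) = 0) :
    ∀ k, 0 < k → k < p → ord (X k) = 0 := by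
  have hκ : ord (r₁ * r₂) = N := by rw [h.mul _ _ hr1 hr2, hN1, hN2, add_zero]
  have a2 := hY.ne0 1 one_pos (by omega)
  have h2 : ord (X 2) = 0 := by
    obtain ⟨a5, e⟩ := ySeq_ord_dblK h hY h4 h40 (k := 1) one_pos (by omega)
    have a3 := hY.dblne1 1 one_pos (by omega)
    have a4 := hY.dblne2 1 one_pos (by omega)
    have e1 : ord (X 1 ^ 2 - r₁ * r₂) = 0 := by
      have := (ord_sub_kappa h (pow_ne_zero 2 a2) (mul_ne_zero hr1 hr2) hκ a5).1
        (by rw [h.pow a2, h1]; simpa using hN)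
      rw [this, h.pow a2, h1]; simp
    have e2 : ord (X 1 - r₁) = 0 := by
      rw [h.sub_eq_of_lt a2 hr1 (by rw [h1, hN1]; exact hN), h1]
    have e3 : 0 ≤ ord (X 1 - r₂) := by
      have := h.sub_ge a2 hr2 a4
      rw [h1, hN2, min_self] at this; exact this
    have e4 := hint 2 (by omega) hp
    rw [e1, e2, h1] at e
    simp only [mul_one] at e
    linarith
  have main : ∀ n, n + 2 < p → ord (X (n + 1)) = 0 ∧ ord (X (n + 2)) = 0 := by
    intro n
    induction n with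
    | zero => intro _; exact ⟨h1, h2⟩
    | succ n ih =>
      intro hn
      obtain ⟨i1, i2⟩ := ih (by omega)
      refine ⟨i2, ?_⟩
      obtain ⟨a5, e⟩ := ySeq_ord_mulK h hY (i := n + 2) (j := 1) one_pos (by omega) (by omega)
      have b1 := hY.ne0 (n + 2) (by omega) (by omega)
      have e1 : ord (X (n + 2) * X 1 - r₁ * r₂) = 0 := by
        have hz : ord (X (n + 2) * X 1) = 0 := by rw [h.mul _ _ b1 a2, i2, h1, add_zero]
        have := (ord_sub_kappa h (mul_ne_zero b1 a2) (mul_ne_zero hr1 hr2) hκ a5).1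
          (by rw [hz]; exact hN)
        rw [this, hz]
      have e2 : 0 ≤ ord (X (n + 2) - X 1) := by
        have := h.sub_ge b1 a2 (sub_ne_zero.mpr (hY.ne (n + 2) 1 one_pos (by omega) (by omega)))
        rw [i2, h1, min_self] at this; exact this
      have e3 := hint (n + 2 + 1) (by omega) (by omega)
      have e4 : n + 2 - 1 = n + 1 := by omega
      rw [e1, e4, i1] at e
      have e5 : n + 1 + 2 = n + 2 + 1 := by omega
      rw [e5]
      linarith
  intro k hk hkp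
  rcases Nat.lt_or_ge k 2 with hk2 | hk2
  · have : k = 1 := by omega
    rw [this]; exact h1
  · have := (main (k - 2) (by omega)).2
    have e : k - 2 + 2 = k := by omega
    rwa [e] at this

/-- one step of the linear growth in (M3). -/
lemma ySeq_M3_step (hY : YSeq p r₁ r₂ X) (hr1 : r₁ ≠ 0) (hr2 : r₂ ≠ 0)
    (hκ : ord (r₁ * r₂) = N) {k : ℕ} (hk : 0 < k) (hkp : 2 * k + 1 < p)
    {c : ℚ} (hc : 0 < c) (h1 : ord (X 1) = c) (hak : ord (X k) = k * c) (hkN : (k : ℚ) * c < N)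
    (hne : X k * X 1 - r₁ * r₂ ≠ 0)
    (hE : ord (X (k + 1)) = 2 * ord (X k * X 1 - r₁ * r₂) - (k + 1) * c)
    (hlt : ord (X (k + 1)) < N) (hmin : c ≤ ord (X (2 * k + 1))) :
    ord (X (k + 1)) = (k + 1) * c := by
  have a1 := hY.ne0 1 one_pos (by omega)
  have ak := hY.ne0 k hk (by omega)
  have ak1 := hY.ne0 (k + 1) (by omega) (by omega)
  have hα : ord (X k * X 1) = (k + 1) * c := by rw [h.mul _ _ ak a1, hak, h1]; ring
  obtain ⟨t1, t2, t3⟩ := ord_sub_kappa h (mul_ne_zero ak a1) (mul_ne_zero hr1 hr2) hκ hne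
  have hk1 : (1 : ℚ) ≤ k := by exact_mod_cast hk
  have hcN : c < N := by nlinarith
  rcases lt_trichotomy ((k + 1) * c) N with hlt' | heq | hgt
  · rw [hE, t1 (by rw [hα]; exact hlt'), hα]; ring
  · exfalso
    have := t3 (by rw [hα]; exact heq)
    rw [hE] at hlt
    linarith
  · exfalso
    have e1 : ord (X (k + 1)) = 2 * N - (k + 1) * c := by
      rw [hE, t2 (by rw [hα]; exact hgt)]
    obtain ⟨a5, e⟩ := ySeq_ord_mulK h hY (i := k + 1) (j := k) hk (by omega) (by omega)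
    have e2 : ord (X (k + 1) * X k) = 2 * N - c := by
      rw [h.mul _ _ ak1 ak, e1, hak]; ring
    have e3 : ord (X (k + 1) * X k - r₁ * r₂) = N :=
      (ord_sub_kappa h (mul_ne_zero ak1 ak) (mul_ne_zero hr1 hr2) hκ a5).2.1
        (by rw [e2]; linarith)
    have e4 : min (2 * N - (k + 1) * c) (k * c) ≤ ord (X (k + 1) - X k) := by
      have := h.sub_ge ak1 ak (sub_ne_zero.mpr (hY.ne (k + 1) k hk (by omega) (by omega)))
      rwa [e1, hak] at this
    have i1 : k + 1 + k = 2 * k + 1 := by omega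
    have i2 : k + 1 - k = 1 := by omega
    rw [i1, i2, e3, h1] at e
    rcases le_total (2 * N - (k + 1) * c) (k * c) with hm | hm
    · rw [min_eq_left hm] at e4
      linarith
    · rw [min_eq_right hm] at e4
      linarith

/-- (M3) linear growth of `ord (x(kQ) - e)` for the point of `⟨Q⟩` closest to the node. -/
lemma ySeq_M3 (hY : YSeq p r₁ r₂ X) (h4 : ord (4 : K) = 0) (h40 : (4 : K) ≠ 0)
    {hh : ℕ} (hp : p = 2 * hh + 1) (hh2 : 2 ≤ hh)
    (hr1 : r₁ ≠ 0) (hr2 : r₂ ≠ 0) (hN1 : ord r₁ = N) (hN2 : ord r₂ = 0)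
    (hrange : ∀ k, 0 < k → k < p → 0 < ord (X k) ∧ ord (X k) < N)
    (hmin : ∀ k, 0 < k → k < p → ord (X 1) ≤ ord (X k)) :
    (p : ℚ) * ord (X 1) = 2 * N ∧ ∀ k, 0 < k → k ≤ hh → ord (X k) = k * ord (X 1) := by
  have hκ : ord (r₁ * r₂) = N := by rw [h.mul _ _ hr1 hr2, hN1, hN2, add_zero]
  obtain ⟨c, hc⟩ : ∃ c, ord (X 1) = c := ⟨_, rfl⟩
  rw [hc]
  have hc0 : 0 < c := hc ▸ (hrange 1 one_pos (by omega)).1
  have hcN : c < N := hc ▸ (hrange 1 one_pos (by omega)).2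
  have a1 := hY.ne0 1 one_pos (by omega)
  have h2 : ord (X 2) = 2 * c := by
    obtain ⟨a5, e⟩ := ySeq_ord_dblK h hY h4 h40 (k := 1) one_pos (by omega)
    have e2 : ord (X 1 - r₁) = c := by
      rw [h.sub_eq_of_lt a1 hr1 (by rw [hc, hN1]; exact hcN), hc]
    have e3 : ord (X 1 - r₂) = 0 := by
      rw [h.sub_eq_of_gt a1 hr2 (by rw [hc, hN2]; exact hc0), hN2]
    rw [e2, e3, hc, sq] at e
    rw [sq] at a5
    simp only [mul_one] at e
    have := ySeq_M3_step h hY hr1 hr2 hκ (k := 1) one_pos (by omega) hc0 hc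
      (by rw [hc]; simp) (by simpa using hcN) a5 (by push_cast; linarith)
      (hrange 2 (by omega) (by omega)).2 (hc ▸ hmin 3 (by omega) (by omega))
    rw [show (1 : ℕ) + 1 = 2 from rfl] at this
    rw [this]; push_cast; ring
  have main : ∀ n, n + 2 ≤ hh →
      ord (X (n + 1)) = ((n + 1 : ℕ) : ℚ) * c ∧ ord (X (n + 2)) = ((n + 2 : ℕ) : ℚ) * c := by
    intro n
    induction n with
    | zero => intro _; exact ⟨by rw [hc]; simp, by rw [h2]; norm_num⟩
    | succ n ih =>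
      intro hn
      obtain ⟨i1, i2⟩ := ih (by omega)
      refine ⟨i2, ?_⟩
      obtain ⟨a5, e⟩ := ySeq_ord_mulK h hY (i := n + 2) (j := 1) one_pos (by omega) (by omega)
      have b1 := hY.ne0 (n + 2) (by omega) (by omega)
      have hn0 : (0 : ℚ) ≤ n := by positivity
      have e2 : ord (X (n + 2) - X 1) = c := by
        rw [h.sub_eq_of_gt b1 a1 (by rw [hc, i2]; push_cast; nlinarith), hc]
      have e4 : n + 2 - 1 = n + 1 := by omega
      rw [e4, i1, e2] at e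
      have := ySeq_M3_step h hY hr1 hr2 hκ (k := n + 2) (by omega) (by omega) hc0 hc i2
        (by rw [← i2]; exact (hrange (n + 2) (by omega) (by omega)).2) a5
        (by push_cast at e ⊢; linarith)
        (hrange (n + 2 + 1) (by omega) (by omega)).2
        (hc ▸ hmin (2 * (n + 2) + 1) (by omega) (by omega))
      have e5 : n + 1 + 2 = n + 2 + 1 := by omega
      rw [e5, this]; push_cast; ring
  have hall : ∀ k, 0 < k → k ≤ hh → ord (X k) = k * c := by
    intro k hk hkh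
    rcases Nat.lt_or_ge k 2 with hk2 | hk2
    · have : k = 1 := by omega
      rw [this, hc]; simp
    · have := (main (k - 2) (by omega)).2
      have e : k - 2 + 2 = k := by omega
      rwa [e] at this
  refine ⟨?_, hall⟩
  obtain ⟨a5, e⟩ := ySeq_ord_mulK h hY (i := hh) (j := 1) one_pos (by omega) (by omega)
  have b1 := hY.ne0 hh (by omega) (by omega)
  have hsym := hY.sym hh (by omega) (by omega)
  have e0 : p - hh = hh + 1 := by omega
  rw [e0] at hsym
  have hhQ : (2 : ℚ) ≤ hh := by exact_mod_cast hh2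
  have e2 : ord (X hh - X 1) = c := by
    rw [h.sub_eq_of_gt b1 a1 (by rw [hc, hall hh (by omega) le_rfl]; nlinarith), hc]
  have e3 : ord (X (hh - 1)) = (hh - 1) * c := by
    rw [hall (hh - 1) (by omega) (by omega)]
    push_cast [Nat.cast_sub (show 1 ≤ hh by omega)]; ring
  rw [hsym, hall hh (by omega) le_rfl, e3, e2] at e
  have hα : ord (X hh * X 1) = (hh + 1) * c := by
    rw [h.mul _ _ b1 a1, hall hh (by omega) le_rfl, hc]; ring
  obtain ⟨t1, t2, t3⟩ := ord_sub_kappa h (mul_ne_zero b1 a1) (mul_ne_zero hr1 hr2) hκ a5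
  have hpQ : (p : ℚ) = 2 * hh + 1 := by rw [hp]; push_cast; ring
  rw [hpQ]
  rcases lt_trichotomy ((hh + 1) * c) N with hlt' | heq | hgt
  · exfalso
    rw [t1 (by rw [hα]; exact hlt'), hα] at e
    linarith
  · exfalso
    have := t3 (by rw [hα]; exact heq)
    linarith
  · rw [t2 (by rw [hα]; exact hgt)] at e
    linarith

end MLemmas

end Fermat.Agent.S05
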