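import Fermat.Agent.S05.Mult

set_option autoImplicit false
set_option linter.unusedSectionVars false
set_option linter.unusedVariables false

/-!
# Points of order `p` reducing to a node
-/

namespace Fermat.Agent.S05

open WeierstrassCurve WeierstrassCurve.Affine WeierstrassCurve.Affine.Point

section Multiples

variable {G : Type*} [AddCommGroup G]

lemma nsmul_mod_of_nsmul_eq_zero {p : ℕ} {R : G} (hpR : p • R = 0) (n : ℕ) :
    (n % p) • R = n • R := by
  conv_rhs => rw [← Nat.div_add_mod n p, add_nsmul, mul_nsmul, hpR, nsmul_zero, zero_add]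

lemma exists_mul_nsmul {p : ℕ} (hp : p.Prime) {R : G} (hpR : p • R = 0) {k l : ℕ}
    (hk : 0 < k) (hkp : k < p) (hl : 0 < l) (hlp : l < p) :
    ∃ m, 0 < m ∧ m < p ∧ l • (k • R) = m • R := by
  refine ⟨(l * k) % p, ?_, Nat.mod_lt _ hp.pos, ?_⟩
  · rw [Nat.pos_iff_ne_zero]
    intro h0
    have := Nat.dvd_of_mod_eq_zero h0
    rcases (Nat.Prime.dvd_mul hp).mp this with h | h
    · exact absurd (Nat.le_of_dvd hl h) (not_le.mpr hlp)
    · exact absurd (Nat.le_of_dvd hk h) (not_le.mpr hkp)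
  · rw [nsmul_mod_of_nsmul_eq_zero hpR, mul_nsmul']

lemma exists_inv_nsmul {p : ℕ} (hp : p.Prime) {R : G} (hpR : p • R = 0) {k : ℕ}
    (hk : 0 < k) (hkp : k < p) : ∃ k', 0 < k' ∧ k' < p ∧ k' • (k • R) = R := by
  have hcop : Nat.Coprime k p := (Nat.coprime_of_lt_prime hk.ne' hkp hp).symm
  obtain ⟨m, hmp, hm⟩ := Nat.exists_mul_mod_eq_one_of_coprime hcop hp.one_lt
  refine ⟨m, ?_, hmp, ?_⟩
  · rw [Nat.pos_iff_ne_zero]
    rintro rfl
    simp at hm
  · rw [← mul_nsmul', mul_comm, ← nsmul_mod_of_nsmul_eq_zero hpR, hm, one_nsmul]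

end Multiples

section Node

variable {K : Type*} [Field K] [DecidableEq K] {V : WeierstrassCurve.Affine K}
  {A : ValuationSubring K} {ord : K → ℚ} {e e' e'' : K} {p : ℕ}

lemma Roots.b_mem (hr : Roots V e e' e'') (he : e ∈ A) (he' : e' ∈ A) (he'' : e'' ∈ A) :
    V.b₂ ∈ A ∧ V.b₄ ∈ A ∧ V.b₆ ∈ A ∧ V.b₈ ∈ A := by
  have h2 : (2 : K) ∈ A := by exact_mod_cast natCast_mem A 2
  have h4 : (4 : K) ∈ A := by exact_mod_cast natCast_mem A 4
  refine ⟨?_, ?_, ?_, ?_⟩
  · rw [hr.b2]; exact mul_mem (neg_mem h4) (add_mem (add_mem he he') he'')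
  · rw [hr.b4]
    exact mul_mem h2 (add_mem (add_mem (mul_mem he he') (mul_mem he he'')) (mul_mem he' he''))
  · rw [hr.b6]; exact mul_mem (neg_mem h4) (mul_mem (mul_mem he he') he'')
  · rw [hr.b8]
    exact sub_mem (mul_mem (mul_mem h4 (add_mem (add_mem he he') he''))
      (mul_mem (mul_mem he he') he''))
      (pow_mem (add_mem (add_mem (mul_mem he he') (mul_mem he he'')) (mul_mem he' he'')) 2)

/-- integrality of the points of order `p`. -/
theorem xc_mem_of_torsion (hr : Roots V e e' e'') (he : e ∈ A) (he' : e' ∈ A) (he'' : e'' ∈ A)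
    (hp : p.Prime) (hp5 : 5 ≤ p) (hpA : (p : K) ∉ A.nonunits)
    {R : V.Point} (hR : R ≠ 0) (hpR : p • R = 0) : xc V R ∈ A := by
  obtain ⟨h2, h4, h6, h8⟩ := hr.b_mem he he' he''
  have hodd : Odd p := hp.odd_of_ne_two (by omega)
  have := xSeq_integral A h2 h4 h6 h8 hp5 hodd hpA (xSeq_of_prime_order hp hR hpR)
  simpa using this

/-- A point of order `p` reducing to the node `e ≡ e'` has `ord (x - e)` in `(2N/p) ℤ`. -/
theorem node_ord (h : IsOrd A ord) (hr : Roots V e e' e'')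
    (he : e ∈ A) (he' : e' ∈ A) (he'' : e'' ∈ A)
    (hp : p.Prime) (hp5 : 5 ≤ p) (hpA : (p : K) ∉ A.nonunits) (h2A : (2 : K) ∉ A.nonunits)
    {N : ℚ} (hN : 0 < N) (hr1 : e' - e ≠ 0) (hr2 : e'' - e ≠ 0)
    (hN1 : ord (e' - e) = N) (hN2 : ord (e'' - e) = 0)
    {R : V.Point} (hR : R ≠ 0) (hpR : p • R = 0) (hpos : 0 < ord (xc V R - e)) :
    ∃ j : ℕ, 0 < j ∧ ord (xc V R - e) = j * (2 * N / p) ∧ ord (xc V R - e) < N := by
  have hodd : Odd p := hp.odd_of_ne_two (by omega)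
  have h20 : (2 : K) ≠ 0 := by
    intro h0; exact h2A (h0 ▸ A.nonunits.zero_mem)
  have h40 : (4 : K) ≠ 0 := by
    have : (4 : K) = 2 * 2 := by norm_num
    rw [this]; exact mul_ne_zero h20 h20
  have h4 : ord (4 : K) = 0 := by
    have e2 : ord (2 : K) = 0 :=
      h.eq_zero_of_unit (by exact_mod_cast natCast_mem A 2) h2A
    have : (4 : K) = 2 * 2 := by norm_num
    rw [this, h.mul _ _ h20 h20, e2, add_zero]
  -- the sequence attached to a point of order p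
  have hY : ∀ S : V.Point, S ≠ 0 → p • S = 0 →
      YSeq p (e' - e) (e'' - e) (fun k => xc V (k • S) - e) := fun S hS hpS =>
    ySeq_of_xSeq hr hodd (xSeq_of_prime_order hp hS hpS)
  have hmul0 : ∀ S : V.Point, S ≠ 0 → p • S = 0 → ∀ k, 0 < k → k < p →
      k • S ≠ 0 ∧ p • (k • S) = 0 := fun S hS hpS k hk hkp =>
    ⟨nsmul_ne_zero_of_lt hp hS hpS hk hkp, by rw [nsmul_left_comm, hpS, nsmul_zero]⟩
  have hint : ∀ S : V.Point, S ≠ 0 → p • S = 0 → 0 ≤ ord (xc V S - e) := by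
    intro S hS hpS
    have h0 := (hY S hS hpS).ne0 1 one_pos (by omega)
    simp only [one_nsmul] at h0
    exact (h.nonneg_iff _ h0).mpr (sub_mem (xc_mem_of_torsion hr he he' he'' hp hp5 hpA hS hpS) he)
  have hintk : ∀ S : V.Point, S ≠ 0 → p • S = 0 → ∀ k, 0 < k → k < p →
      0 ≤ ord (xc V (k • S) - e) := fun S hS hpS k hk hkp =>
    hint _ (hmul0 S hS hpS k hk hkp).1 (hmul0 S hS hpS k hk hkp).2
  -- (M2) at the level of points
  have hM2 : ∀ S : V.Point, S ≠ 0 → p • S = 0 → ord (xc V S - e) = 0 →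
      ∀ k, 0 < k → k < p → ord (xc V (k • S) - e) = 0 := by
    intro S hS hpS h0
    exact ySeq_M2 h (hY S hS hpS) h4 h40 (by omega) hr1 hr2 hN1 hN2 hN (hintk S hS hpS)
      (by simpa using h0)
  -- (i)
  have hi : ∀ k, 0 < k → k < p → 0 < ord (xc V (k • R) - e) ∧ ord (xc V (k • R) - e) < N := by
    intro k hk hkp
    obtain ⟨hS, hpS⟩ := hmul0 R hR hpR k hk hkp
    have hpos' : 0 < ord (xc V (k • R) - e) := by
      rcases (hint _ hS hpS).lt_or_eq with hlt | heq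
      · exact hlt
      · exfalso
        obtain ⟨k', hk', hk'p, hk'R⟩ := exists_inv_nsmul hp hpR hk hkp
        have := hM2 _ hS hpS heq.symm k' hk' hk'p
        rw [hk'R] at this
        linarith
    refine ⟨hpos', ?_⟩
    by_contra hge
    push Not at hge
    have h1 := ySeq_M1 h (hY _ hS hpS) h4 h40 (by omega) hr1 hr2 hN1 hN2
      (by simpa using hpos') (by simpa using hge) hN.le
    simp only [one_nsmul] at h1
    obtain ⟨hS2, hpS2⟩ := hmul0 _ hS hpS 2 (by omega) (by omega)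
    have h2 : ord (xc V (2 • k • R) - e) = 0 := le_antisymm (by linarith) (hint _ hS2 hpS2)
    obtain ⟨m, hm, hmp, hmR⟩ := exists_mul_nsmul hp hpR hk hkp (l := 2) (by omega) (by omega)
    obtain ⟨k', hk', hk'p, hk'R⟩ := exists_inv_nsmul hp hpR hm hmp
    have := hM2 _ hS2 hpS2 h2 k' hk' hk'p
    rw [hmR, hk'R] at this
    linarith
  -- (ii) the minimal point
  obtain ⟨k₀, hk₀, hmin⟩ := Finset.exists_min_image (Finset.Ioo 0 p)
    (fun k => ord (xc V (k • R) - e)) ⟨1, by rw [Finset.mem_Ioo]; omega⟩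
  rw [Finset.mem_Ioo] at hk₀
  obtain ⟨hQ, hpQ⟩ := hmul0 R hR hpR k₀ hk₀.1 hk₀.2
  obtain ⟨hh, hhp⟩ := hodd
  have hrange : ∀ k, 0 < k → k < p →
      0 < ord (xc V (k • k₀ • R) - e) ∧ ord (xc V (k • k₀ • R) - e) < N := by
    intro k hk hkp
    obtain ⟨m, hm, hmp, hmR⟩ := exists_mul_nsmul hp hpR hk₀.1 hk₀.2 hk hkp
    rw [hmR]; exact hi m hm hmp
  have hmin' : ∀ k, 0 < k → k < p →
      ord (xc V (1 • k₀ • R) - e) ≤ ord (xc V (k • k₀ • R) - e) := by
    intro k hk hkp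
    obtain ⟨m, hm, hmp, hmR⟩ := exists_mul_nsmul hp hpR hk₀.1 hk₀.2 hk hkp
    rw [hmR, one_nsmul]; exact hmin m (by rw [Finset.mem_Ioo]; exact ⟨hm, hmp⟩)
  obtain ⟨hc, hlin⟩ := ySeq_M3 h (hY _ hQ hpQ) h4 h40 hhp (by omega) hr1 hr2 hN1 hN2
    hrange hmin'
  simp only [one_nsmul] at hc hlin
  have hpQ0 : (p : ℚ) ≠ 0 := by exact_mod_cast hp.ne_zero
  have hc' : ord (xc V (k₀ • R) - e) = 2 * N / p := by
    rw [eq_div_iff hpQ0]; linarith
  obtain ⟨j, hj, hjp, hjR⟩ := exists_inv_nsmul hp hpR hk₀.1 hk₀.2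
  have hlt := (hi 1 one_pos (by omega)).2
  rw [one_nsmul] at hlt
  rcases Nat.lt_or_ge hh j with hjh | hjh
  · refine ⟨p - j, by omega, ?_, hlt⟩
    have := hlin (p - j) (by omega) (by omega)
    have hs := (hY _ hQ hpQ).sym j hj hjp
    rw [hs, hjR, hc'] at this
    exact this
  · refine ⟨j, hj, ?_, hlt⟩
    have := hlin j hj hjh
    rw [hjR, hc'] at this
    exact this

end Node

end Fermat.Agent.S05
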