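import Fermat.Agent.S05.Integral

set_option autoImplicit false
set_option linter.unusedSectionVars false
set_option linter.unusedVariables false

/-!
# A `ℚ`-valued additive valuation attached to a valuation subring of `ℚ̄`
-/

namespace Fermat.Agent.S05

section IsOrd

variable {K : Type*} [Field K]

/-- `ord` is an additive `ℚ`-valued valuation with valuation ring `A` (junk value at `0`). -/
structure IsOrd (A : ValuationSubring K) (ord : K → ℚ) : Prop where
  mul : ∀ x y, x ≠ 0 → y ≠ 0 → ord (x * y) = ord x + ord y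
  nonneg_iff : ∀ x, x ≠ 0 → (0 ≤ ord x ↔ x ∈ A)

namespace IsOrd

variable {A : ValuationSubring K} {ord : K → ℚ} (h : IsOrd A ord)
include h

lemma one : ord 1 = 0 := by
  have := h.mul 1 1 one_ne_zero one_ne_zero
  rw [mul_one] at this; linarith

lemma inv {x : K} (hx : x ≠ 0) : ord x⁻¹ = - ord x := by
  have := h.mul x x⁻¹ hx (inv_ne_zero hx)
  rw [mul_inv_cancel₀ hx, h.one] at this; linarith

lemma div {x y : K} (hx : x ≠ 0) (hy : y ≠ 0) : ord (x / y) = ord x - ord y := by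
  rw [div_eq_mul_inv, h.mul x y⁻¹ hx (inv_ne_zero hy), h.inv hy]; ring

lemma neg_one : ord (-1) = 0 := by
  have := h.mul (-1) (-1) (neg_ne_zero.mpr one_ne_zero) (neg_ne_zero.mpr one_ne_zero)
  rw [neg_mul_neg, mul_one, h.one] at this; linarith

lemma neg (x : K) : ord (-x) = ord x := by
  by_cases hx : x = 0
  · rw [hx, neg_zero]
  · rw [← neg_one_mul, h.mul _ _ (neg_ne_zero.mpr one_ne_zero) hx, h.neg_one, zero_add]

lemma sub_comm (x y : K) : ord (x - y) = ord (y - x) := by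
  rw [← h.neg (x - y), neg_sub]

lemma pow {x : K} (hx : x ≠ 0) (n : ℕ) : ord (x ^ n) = n * ord x := by
  induction n with
  | zero => simp [h.one]
  | succ n ih => rw [pow_succ, h.mul _ _ (pow_ne_zero n hx) hx, ih]; push_cast; ring

lemma pos_iff {x : K} (hx : x ≠ 0) : 0 < ord x ↔ x ∈ A.nonunits := by
  rw [ValuationSubring.mem_nonunits_iff_or]
  constructor
  · intro hpos
    right
    intro hmem
    have := (h.nonneg_iff x⁻¹ (inv_ne_zero hx)).mpr hmem
    rw [h.inv hx] at this; linarith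
  · rintro (h0 | hmem)
    · exact absurd h0 hx
    · by_contra hle
      apply hmem
      apply (h.nonneg_iff x⁻¹ (inv_ne_zero hx)).mp
      rw [h.inv hx]; linarith

lemma le_iff {x y : K} (hx : x ≠ 0) (hy : y ≠ 0) : ord x ≤ ord y ↔ y / x ∈ A := by
  rw [← h.nonneg_iff _ (div_ne_zero hy hx), h.div hy hx]
  constructor <;> intro <;> linarith

lemma add_ge_left {x y : K} (hx : x ≠ 0) (hy : y ≠ 0) (hxy : x + y ≠ 0) (hle : ord x ≤ ord y) :
    ord x ≤ ord (x + y) := by
  rw [h.le_iff hx hxy]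
  have : (x + y) / x = 1 + y / x := by field_simp
  rw [this]
  exact A.add_mem _ _ A.one_mem ((h.le_iff hx hy).mp hle)

lemma add_ge {x y : K} (hx : x ≠ 0) (hy : y ≠ 0) (hxy : x + y ≠ 0) :
    min (ord x) (ord y) ≤ ord (x + y) := by
  rcases le_total (ord x) (ord y) with hle | hle
  · rw [min_eq_left hle]; exact h.add_ge_left hx hy hxy hle
  · rw [min_eq_right hle, add_comm]; rw [add_comm] at hxy; exact h.add_ge_left hy hx hxy hle

lemma add_ne_zero_of_lt {x y : K} (hlt : ord x < ord y) : x + y ≠ 0 := by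
  intro h0
  have : y = -x := by linear_combination h0
  rw [this, h.neg] at hlt
  exact lt_irrefl _ hlt

lemma add_eq_of_lt {x y : K} (hx : x ≠ 0) (hy : y ≠ 0) (hlt : ord x < ord y) :
    ord (x + y) = ord x := by
  have hxy := h.add_ne_zero_of_lt hlt
  apply le_antisymm _ (h.add_ge_left hx hy hxy hlt.le)
  by_contra hgt
  push Not at hgt
  -- x = (x+y) + (-y)
  have h1 : min (ord (x + y)) (ord (-y)) ≤ ord ((x + y) + (-y)) :=
    h.add_ge hxy (neg_ne_zero.mpr hy) (by simpa using hx)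
  rw [h.neg, add_neg_cancel_right] at h1
  rcases min_le_iff.mp h1 with h2 | h2 <;> linarith

lemma sub_eq_of_lt {x y : K} (hx : x ≠ 0) (hy : y ≠ 0) (hlt : ord x < ord y) :
    ord (x - y) = ord x := by
  rw [sub_eq_add_neg]
  exact h.add_eq_of_lt hx (neg_ne_zero.mpr hy) (by rwa [h.neg])

lemma sub_eq_of_gt {x y : K} (hx : x ≠ 0) (hy : y ≠ 0) (hlt : ord y < ord x) :
    ord (x - y) = ord y := by
  rw [h.sub_comm]; exact h.sub_eq_of_lt hy hx hlt

lemma sub_ge {x y : K} (hx : x ≠ 0) (hy : y ≠ 0) (hxy : x - y ≠ 0) :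
    min (ord x) (ord y) ≤ ord (x - y) := by
  have := h.add_ge hx (neg_ne_zero.mpr hy) (by rwa [← sub_eq_add_neg])
  rwa [h.neg, ← sub_eq_add_neg] at this

lemma eq_zero_of_unit {x : K} (hx : x ∈ A) (hx' : x ∉ A.nonunits) : ord x = 0 := by
  have hx0 : x ≠ 0 := by
    rintro rfl; exact hx' A.nonunits.zero_mem
  have h1 := (h.nonneg_iff x hx0).mpr hx
  have h2 : ¬ 0 < ord x := fun hp => hx' ((h.pos_iff hx0).mp hp)
  linarith

lemma unit_of_eq_zero {x : K} (hx0 : x ≠ 0) (hx : ord x = 0) : x ∈ A ∧ x ∉ A.nonunits :=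
  ⟨(h.nonneg_iff x hx0).mp hx.ge, fun hm => by
    have := (h.pos_iff hx0).mpr hm; linarith⟩

end IsOrd

end IsOrd

section Exist

variable {K : Type*} [Field K] [CharZero K] (A : ValuationSubring K)

lemma val_int_of_not_dvd {q : ℕ} (hq : q.Prime) (hqA : (q : K) ∈ A.nonunits) {n : ℤ}
    (hn : ¬ (q : ℤ) ∣ n) : A.valuation (n : K) = 1 := by
  have hnA : (n : K) ∈ A := intCast_mem A n
  have hle : A.valuation (n : K) ≤ 1 := (A.valuation_le_one_iff _).mpr hnA
  rcases hle.lt_or_eq with hlt | heq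
  · exfalso
    have hcop : IsCoprime n (q : ℤ) := by
      have := (Nat.prime_iff_prime_int.mp hq)
      exact ((Prime.coprime_iff_not_dvd this).mpr hn).symm
    obtain ⟨a, b, hab⟩ := hcop
    have h1 : (a : K) * n + b * q = 1 := by exact_mod_cast congrArg (Int.cast : ℤ → K) hab
    have h2 : (a : K) * n + b * q ∈ A.nonunits :=
      nu_add A (nu_mul_left A (intCast_mem A a) ((A.mem_nonunits_iff).mpr hlt))
        (nu_mul_left A (intCast_mem A b) hqA)
    rw [h1, A.mem_nonunits_iff, map_one] at h2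
    exact lt_irrefl _ h2
  · exact heq

lemma val_int {q : ℕ} (hq : q.Prime) (hqA : (q : K) ∈ A.nonunits) {n : ℤ} (hn : n ≠ 0) :
    A.valuation (n : K) = A.valuation (q : K) ^ (padicValInt q n) := by
  have : Fact q.Prime := ⟨hq⟩
  obtain ⟨e, he⟩ : ∃ e, e = padicValInt q n := ⟨_, rfl⟩
  obtain ⟨c, hc⟩ : (q : ℤ) ^ e ∣ n := he ▸ padicValInt_dvd n
  have hc' : ¬ (q : ℤ) ∣ c := by
    intro hd
    obtain ⟨d, rfl⟩ := hd
    have : (q : ℤ) ^ (e + 1) ∣ n := ⟨d, by rw [hc]; ring⟩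
    rw [padicValInt_dvd_iff] at this
    rcases this with h0 | h0
    · exact hn h0
    · omega
  have : (n : K) = (q : K) ^ e * (c : K) := by
    rw [hc]
    push_cast; ring
  rw [← he, this, map_mul, map_pow, val_int_of_not_dvd A hq hqA hc', mul_one]

variable [Algebra ℚ K] [Algebra.IsAlgebraic ℚ K]

lemma exists_pow_val_eq {q : ℕ} (hq : q.Prime) (hqA : (q : K) ∈ A.nonunits) {x : K}
    (hx : x ≠ 0) :
    ∃ (n : ℕ) (m : ℤ), 0 < n ∧ A.valuation x ^ n = A.valuation (q : K) ^ m := by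
  classical
  have halg : IsAlgebraic ℤ x :=
    (IsFractionRing.isAlgebraic_iff ℤ ℚ K).mpr (Algebra.IsAlgebraic.isAlgebraic x)
  obtain ⟨f, hf0, hfx⟩ := halg
  set v := A.valuation with hv
  have hvx : v x ≠ 0 := (Valuation.ne_zero_iff _).mpr hx
  have hq0 : (q : K) ≠ 0 := by exact_mod_cast hq.ne_zero
  have hvq : v (q : K) ≠ 0 := (Valuation.ne_zero_iff _).mpr hq0
  set t : ℕ → K := fun i => (f.coeff i : K) * x ^ i with ht
  have hsum : ∑ i ∈ f.support, t i = 0 := by
    rw [Polynomial.aeval_def, Polynomial.eval₂_eq_sum, Polynomial.sum_def] at hfx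
    simpa [ht] using hfx
  have hne : f.support.Nonempty := Polynomial.nonempty_support_iff.mpr hf0
  obtain ⟨j, hj, hmax⟩ := Finset.exists_max_image f.support (fun i => v (t i)) hne
  have htj : ∀ i ∈ f.support, t i ≠ 0 := by
    intro i hi
    have : f.coeff i ≠ 0 := Polynomial.mem_support_iff.mp hi
    exact mul_ne_zero (by exact_mod_cast this) (pow_ne_zero _ hx)
  have hex : ∃ i ∈ f.support, i ≠ j ∧ v (t i) = v (t j) := by
    by_contra hcon
    push Not at hcon
    have : v (∑ i ∈ f.support, t i) = v (t j) := by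
      apply Valuation.map_sum_eq_of_lt _ hj
      intro i hi
      rw [Finset.mem_sdiff, Finset.mem_singleton] at hi
      exact lt_of_le_of_ne (hmax i hi.1) (hcon i hi.1 hi.2)
    rw [hsum, map_zero] at this
    exact (Valuation.ne_zero_iff _).mpr (htj j hj) this.symm
  obtain ⟨i, hi, hij, heq⟩ := hex
  have hci : f.coeff i ≠ 0 := Polynomial.mem_support_iff.mp hi
  have hcj : f.coeff j ≠ 0 := Polynomial.mem_support_iff.mp hj
  simp only [ht, map_mul, map_pow] at heq
  rw [val_int A hq hqA hci, val_int A hq hqA hcj] at heq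
  -- v q ^ mi * v x ^ i = v q ^ mj * v x ^ j
  set mi := padicValInt q (f.coeff i)
  set mj := padicValInt q (f.coeff j)
  rcases lt_or_gt_of_ne hij with hlt | hlt
  · refine ⟨j - i, (mi : ℤ) - mj, by omega, ?_⟩
    have e : v x ^ j = v x ^ (j - i) * v x ^ i := by rw [← pow_add]; congr 1; omega
    rw [e] at heq
    rw [zpow_sub₀ hvq, zpow_natCast, zpow_natCast, eq_div_iff (pow_ne_zero _ hvq)]
    have := mul_right_cancel₀ (pow_ne_zero i hvx) (by rw [heq]; simp only [hv, mul_comm, mul_assoc] :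
      v (q : K) ^ mi * v x ^ i = (v x ^ (j - i) * v (q : K) ^ mj) * v x ^ i)
    exact this.symm
  · refine ⟨i - j, (mj : ℤ) - mi, by omega, ?_⟩
    have e : v x ^ i = v x ^ (i - j) * v x ^ j := by rw [← pow_add]; congr 1; omega
    rw [e] at heq
    rw [zpow_sub₀ hvq, zpow_natCast, zpow_natCast, eq_div_iff (pow_ne_zero _ hvq)]
    have := mul_right_cancel₀ (pow_ne_zero j hvx) (by rw [← heq]; simp only [hv, mul_comm, mul_assoc] :
      v (q : K) ^ mj * v x ^ j = (v x ^ (i - j) * v (q : K) ^ mi) * v x ^ j)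
    exact this.symm

open Classical in
/-- the `ℚ`-valued valuation normalised by `ord q = 1`. -/
noncomputable def ordQ {q : ℕ} (hq : q.Prime) (hqA : (q : K) ∈ A.nonunits) (x : K) : ℚ :=
  if hx : x = 0 then 0 else
    ((exists_pow_val_eq A hq hqA hx).choose_spec.choose : ℚ) /
      ((exists_pow_val_eq A hq hqA hx).choose : ℚ)

lemma ordQ_eq {q : ℕ} (hq : q.Prime) (hqA : (q : K) ∈ A.nonunits) {x : K} (hx : x ≠ 0)
    {n : ℕ} {m : ℤ} (hn : 0 < n) (h : A.valuation x ^ n = A.valuation (q : K) ^ m) :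
    ordQ A hq hqA x = (m : ℚ) / (n : ℚ) := by
  have hq0 : (q : K) ≠ 0 := by exact_mod_cast hq.ne_zero
  have hγ0 : 0 < A.valuation (q : K) := zero_lt_iff.mpr ((Valuation.ne_zero_iff _).mpr hq0)
  have hγ1 : A.valuation (q : K) ≠ 1 := ne_of_lt ((A.mem_nonunits_iff).mp hqA)
  rw [ordQ, dif_neg hx]
  obtain ⟨hn0, h0⟩ := (exists_pow_val_eq A hq hqA hx).choose_spec.choose_spec
  set n0 := (exists_pow_val_eq A hq hqA hx).choose
  set m0 := (exists_pow_val_eq A hq hqA hx).choose_spec.choose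
  have e1 : A.valuation (q : K) ^ (m * n0) = A.valuation (q : K) ^ (m0 * n) := by
    rw [zpow_mul, zpow_mul, zpow_natCast, zpow_natCast, ← h, ← h0, ← pow_mul, ← pow_mul,
      mul_comm]
  have e2 : m * n0 = m0 * n := zpow_right_injective₀ hγ0 hγ1 e1
  have hnQ : (n : ℚ) ≠ 0 := by exact_mod_cast hn.ne'
  have hn0Q : (n0 : ℚ) ≠ 0 := by exact_mod_cast hn0.ne'
  rw [div_eq_div_iff hn0Q hnQ]
  exact_mod_cast e2.symm

theorem exists_isOrd {q : ℕ} (hq : q.Prime) (hqA : (q : K) ∈ A.nonunits) :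
    ∃ ord : K → ℚ, IsOrd A ord ∧ ord (q : K) = 1 := by
  have hq0 : (q : K) ≠ 0 := by exact_mod_cast hq.ne_zero
  have hγ0 : 0 < A.valuation (q : K) := zero_lt_iff.mpr ((Valuation.ne_zero_iff _).mpr hq0)
  have hγ1 : A.valuation (q : K) < 1 := (A.mem_nonunits_iff).mp hqA
  refine ⟨ordQ A hq hqA, ⟨?_, ?_⟩, ?_⟩
  · intro x y hx hy
    obtain ⟨n1, m1, hn1, h1⟩ := exists_pow_val_eq A hq hqA hx
    obtain ⟨n2, m2, hn2, h2⟩ := exists_pow_val_eq A hq hqA hy
    have h3 : A.valuation (x * y) ^ (n1 * n2) = A.valuation (q : K) ^ (m1 * n2 + m2 * n1) := by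
      rw [map_mul, mul_pow, pow_mul, h1, mul_comm n1 n2, pow_mul, h2, zpow_add₀ hγ0.ne',
        zpow_mul, zpow_mul, zpow_natCast, zpow_natCast]
    rw [ordQ_eq A hq hqA hx hn1 h1, ordQ_eq A hq hqA hy hn2 h2,
      ordQ_eq A hq hqA (mul_ne_zero hx hy) (Nat.mul_pos hn1 hn2) h3]
    have hn1Q : (n1 : ℚ) ≠ 0 := by exact_mod_cast hn1.ne'
    have hn2Q : (n2 : ℚ) ≠ 0 := by exact_mod_cast hn2.ne'
    push_cast
    field_simp
  · intro x hx
    obtain ⟨n1, m1, hn1, h1⟩ := exists_pow_val_eq A hq hqA hx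
    rw [ordQ_eq A hq hqA hx hn1 h1, ← A.valuation_le_one_iff,
      ← pow_le_one_iff_of_nonneg zero_le hn1.ne', h1,
      zpow_le_one_iff_right_of_lt_one₀ hγ0 hγ1]
    have hn1Q : (0 : ℚ) < (n1 : ℚ) := by exact_mod_cast hn1
    rw [div_nonneg_iff]
    constructor
    · rintro (⟨h, _⟩ | ⟨_, h⟩)
      · exact_mod_cast h
      · linarith
    · intro h
      left
      exact ⟨by exact_mod_cast h, hn1Q.le⟩
  · have := ordQ_eq A hq hqA hq0 (n := 1) (m := 1) one_pos (by simp)
    simpa using this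

end Exist

end Fermat.Agent.S05
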