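import Fermat.Agent.S05.XOnly

set_option autoImplicit false
set_option linter.unusedSectionVars false
set_option linter.unusedVariables false

/-!
# The sequence `x(kQ)` for a point `Q` of prime order
-/

namespace Fermat.Agent.S05

open WeierstrassCurve WeierstrassCurve.Affine WeierstrassCurve.Affine.Point

section Order

variable {K : Type*} [Field K] [DecidableEq K] {V : WeierstrassCurve.Affine K}

/-- The formal properties of the sequence `x k = x(kQ)`, `0 < k < p`. -/
structure XSeq (V : WeierstrassCurve.Affine K) (p : ℕ) (x : ℕ → K) : Prop where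
  sym : ∀ k, 0 < k → k < p → x (p - k) = x k
  ne : ∀ i j, 0 < j → j < i → i + j < p → x i ≠ x j
  addG : ∀ i j, 0 < j → j < i → i + j < p →
    (x (i + j) + x (i - j)) * (x i - x j) ^ 2 = fG V (x i) (x j)
  mulH : ∀ i j, 0 < j → j < i → i + j < p →
    x (i + j) * x (i - j) * (x i - x j) ^ 2 = fH V (x i) (x j)
  dblF : ∀ k, 0 < k → 2 * k < p → fF V (x k) ≠ 0
  dbl : ∀ k, 0 < k → 2 * k < p → x (2 * k) * fF V (x k) = fD V (x k)

lemma nsmul_ne_zero_of_lt {p : ℕ} (hp : p.Prime) {Q : V.Point} (hQ : Q ≠ 0) (hpQ : p • Q = 0)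
    {k : ℕ} (hk : 0 < k) (hkp : k < p) : k • Q ≠ 0 := by
  intro h
  haveI : Fact p.Prime := ⟨hp⟩
  have ho : addOrderOf Q = p := addOrderOf_eq_prime hpQ hQ
  have := addOrderOf_dvd_of_nsmul_eq_zero h
  rw [ho] at this
  exact absurd (Nat.le_of_dvd hk this) (not_le.mpr hkp)

lemma xSeq_of_prime_order {p : ℕ} (hp : p.Prime) {Q : V.Point} (hQ : Q ≠ 0) (hpQ : p • Q = 0) :
    XSeq V p (fun k => xc V (k • Q)) := by
  have hne0 : ∀ k, 0 < k → k < p → k • Q ≠ 0 := fun k h1 h2 => nsmul_ne_zero_of_lt hp hQ hpQ h1 h2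
  have hne : ∀ i j, 0 < j → j < i → i + j < p → xc V (i • Q) ≠ xc V (j • Q) := by
    intro i j hj hji hij h
    rcases eq_or_eq_neg_of_xc_eq (hne0 i (by omega) (by omega)) (hne0 j hj (by omega)) h with h | h
    · apply hne0 (i - j) (by omega) (by omega)
      have : i • Q = (i - j) • Q + j • Q := by rw [← add_nsmul]; congr 1; omega
      rw [this] at h
      simpa using h
    · apply hne0 (i + j) (by omega) hij
      rw [add_nsmul, h]; simp
  have hsub : ∀ i j : ℕ, j < i → (i - j) • Q = i • Q - j • Q := by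
    intro i j hji
    have : i • Q = (i - j) • Q + j • Q := by rw [← add_nsmul]; congr 1; omega
    rw [this]; simp
  refine ⟨?_, hne, ?_, ?_, ?_, ?_⟩
  · intro k hk hkp
    have : (p - k) • Q = -(k • Q) := by
      rw [hsub p k hkp, hpQ]; simp
    simp only [this, xc_neg]
  · intro i j hj hji hij
    have := (xc_add_sub (hne0 i (by omega) (by omega)) (hne0 j hj (by omega))
      (hne i j hj hji hij)).1
    simpa only [add_nsmul, hsub i j hji] using this
  · intro i j hj hji hij
    have := (xc_add_sub (hne0 i (by omega) (by omega)) (hne0 j hj (by omega))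
      (hne i j hj hji hij)).2
    simpa only [add_nsmul, hsub i j hji] using this
  · intro k hk hkp
    have h2 : k • Q + k • Q ≠ 0 := by
      rw [← add_nsmul]; exact hne0 (k + k) (by omega) (by omega)
    exact (xc_two_nsmul (hne0 k hk (by omega)) h2).1
  · intro k hk hkp
    have h2 : k • Q + k • Q ≠ 0 := by
      rw [← add_nsmul]; exact hne0 (k + k) (by omega) (by omega)
    have := (xc_two_nsmul (hne0 k hk (by omega)) h2).2
    simpa only [two_mul, add_nsmul] using this

end Order

end Fermat.Agent.S05
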