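import Mathlib

set_option autoImplicit false
set_option linter.unusedSectionVars false
set_option linter.unusedVariables false

/-!
# x-only identities on a Weierstrass curve

`x(P+Q) + x(P-Q)`, `x(P+Q) * x(P-Q)` and `x(2P)` as rational functions of `x(P)`, `x(Q)`.
-/

namespace Fermat.Agent.S05

open WeierstrassCurve WeierstrassCurve.Affine WeierstrassCurve.Affine.Point

section XOnly

variable {K : Type*} [Field K] [DecidableEq K] (V : WeierstrassCurve.Affine K)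

/-- the `x`-coordinate of a point (junk value `0` at infinity). -/
def xc : V.Point → K
  | .zero => 0
  | .some x _ _ => x

/-- `ψ₂² = 4x³ + b₂x² + 2b₄x + b₆`. -/
def fF (x : K) : K := 4 * x ^ 3 + V.b₂ * x ^ 2 + 2 * V.b₄ * x + V.b₆

/-- numerator of the duplication formula. -/
def fD (x : K) : K := x ^ 4 - V.b₄ * x ^ 2 - 2 * V.b₆ * x - V.b₈

/-- numerator of `x(P+Q) + x(P-Q)`. -/
def fG (x₁ x₂ : K) : K :=
  2 * (x₁ + x₂) * (x₁ * x₂) + V.b₂ * (x₁ * x₂) + V.b₄ * (x₁ + x₂) + V.b₆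

/-- numerator of `x(P+Q) * x(P-Q)`. -/
def fH (x₁ x₂ : K) : K :=
  (x₁ * x₂) ^ 2 - V.b₄ * (x₁ * x₂) - V.b₆ * (x₁ + x₂) - V.b₈

variable {V}

@[simp] lemma xc_some {x y : K} (h : V.Nonsingular x y) : xc V (some x y h) = x := rfl

lemma xc_neg (P : V.Point) : xc V (-P) = xc V P := by
  cases P <;> rfl

lemma exists_some_of_ne_zero {P : V.Point} (hP : P ≠ 0) :
    ∃ (x y : K) (h : V.Nonsingular x y), P = some x y h := by
  cases P with
  | zero => exact absurd rfl hP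
  | some x y h => exact ⟨x, y, h, rfl⟩

lemma fF_eq_sq {x y : K} (h : V.Equation x y) : fF V x = (y - V.negY x y) ^ 2 := by
  rw [equation_iff] at h
  simp only [fF, negY, WeierstrassCurve.b₂, WeierstrassCurve.b₄, WeierstrassCurve.b₆]
  linear_combination (-4 : K) * h

/-- If `x(P) = x(Q)` then `P = ± Q`. -/
lemma eq_or_eq_neg_of_xc_eq {P Q : V.Point} (hP : P ≠ 0) (hQ : Q ≠ 0)
    (h : xc V P = xc V Q) : P = Q ∨ P = -Q := by
  obtain ⟨x₁, y₁, h₁, rfl⟩ := exists_some_of_ne_zero hP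
  obtain ⟨x₂, y₂, h₂, rfl⟩ := exists_some_of_ne_zero hQ
  simp only [xc_some] at h
  subst h
  rcases Y_eq_of_X_eq h₁.1 h₂.1 rfl with hy | hy
  · left; subst hy; rfl
  · right; subst hy; rw [neg_some]

/-- duplication formula. -/
lemma xc_two_nsmul {P : V.Point} (hP : P ≠ 0) (h2 : P + P ≠ 0) :
    fF V (xc V P) ≠ 0 ∧ xc V (P + P) * fF V (xc V P) = fD V (xc V P) := by
  obtain ⟨x, y, h, rfl⟩ := exists_some_of_ne_zero hP
  have hy : y ≠ V.negY x y := by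
    intro hy
    exact h2 (add_self_of_Y_eq hy)
  have hy' : y - V.negY x y ≠ 0 := sub_ne_zero.mpr hy
  have hF : fF V x ≠ 0 := by
    rw [fF_eq_sq h.1]; exact pow_ne_zero 2 hy'
  refine ⟨hF, ?_⟩
  rw [add_self_of_Y_ne hy]
  simp only [xc_some]
  rw [slope_of_Y_ne rfl hy, fF_eq_sq h.1]
  have he := h.1
  rw [equation_iff] at he
  simp only [addX]
  field_simp
  simp only [fD, negY, WeierstrassCurve.b₄, WeierstrassCurve.b₆, WeierstrassCurve.b₈]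
  linear_combination (-8 * x - V.a₁ ^ 2 - 4 * V.a₂) * he

/-- the sum and product formulas for `x(P ± Q)`. -/
lemma xc_add_sub {P Q : V.Point} (hP : P ≠ 0) (hQ : Q ≠ 0) (hx : xc V P ≠ xc V Q) :
    (xc V (P + Q) + xc V (P - Q)) * (xc V P - xc V Q) ^ 2 = fG V (xc V P) (xc V Q) ∧
    xc V (P + Q) * xc V (P - Q) * (xc V P - xc V Q) ^ 2 = fH V (xc V P) (xc V Q) := by
  obtain ⟨x₁, y₁, h₁, rfl⟩ := exists_some_of_ne_zero hP
  obtain ⟨x₂, y₂, h₂, rfl⟩ := exists_some_of_ne_zero hQ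
  simp only [xc_some] at hx
  have hd : x₁ - x₂ ≠ 0 := sub_ne_zero.mpr hx
  rw [sub_eq_add_neg, neg_some, add_of_X_ne hx, add_of_X_ne hx]
  simp only [xc_some]
  rw [slope_of_X_ne hx, slope_of_X_ne hx]
  have e₁ := h₁.1
  have e₂ := h₂.1
  rw [equation_iff] at e₁ e₂
  simp only [addX, negY]
  constructor
  · field_simp
    simp only [fG, WeierstrassCurve.b₂, WeierstrassCurve.b₄, WeierstrassCurve.b₆]
    linear_combination (2 : K) * e₁ + (2 : K) * e₂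
  · field_simp
    simp only [fH, WeierstrassCurve.b₄, WeierstrassCurve.b₆, WeierstrassCurve.b₈]
    linear_combination
      (y₁^2 + y₁*x₁*V.a₁ + y₁*V.a₃ - 2*y₂^2 - 2*y₂*x₂*V.a₁ - 2*y₂*V.a₃ - x₁^3 + 2*x₁^2*x₂
        - x₁^2*V.a₂ + 2*x₁*x₂^2 + x₁*x₂*V.a₁^2 + 4*x₁*x₂*V.a₂ + x₁*V.a₁*V.a₃ + x₁*V.a₄
        - 2*x₂^3 - x₂^2*V.a₁^2 - 2*x₂^2*V.a₂ - x₂*V.a₁*V.a₃ + V.a₆) * e₁ +
      (y₂^2 + y₂*x₂*V.a₁ + y₂*V.a₃ - 4*x₁^3 + 2*x₁^2*x₂ - x₁^2*V.a₁^2 - 4*x₁^2*V.a₂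
        + 2*x₁*x₂^2 + x₁*x₂*V.a₁^2 + 4*x₁*x₂*V.a₂ - x₁*V.a₁*V.a₃ - 2*x₁*V.a₄ - x₂^3
        - x₂^2*V.a₂ + x₂*V.a₁*V.a₃ + x₂*V.a₄ - V.a₆) * e₂

end XOnly

end Fermat.Agent.S05
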